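import Mathlib
import Fermat.Prelude.Def_ModularCurve_LaurentCoeff

/-!
# Reduction of a ring of series over a polynomial base: purity and normality

`Base O k ι` is a subring of `ι → O((X))` over a base `O[u, 1/Q(u)]` whose discriminants generate
the unit ideal after inverting `pi` and do not all vanish modulo `pi`. Then the discriminant is
locally a unit modulo `pi`, and the reduced ring is normal (proved in `Connected.Normal`; here
`mem_loc_of_isIntegral` handles the base).
-/

set_option autoImplicit false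

noncomputable section

open Polynomial ModularCurve Matrix

namespace Fermat.Agent.Connected

local notation "cC" => HahnSeries.C (Γ := ℤ)

section LocSub

variable {R L : Type*} [CommRing R] [CommRing L]

/-- Elements which become images of `R` after multiplication by an image of an element of `q`. -/
def locSub (e : R →+* L) (q : Submonoid R) : Subring L where
  carrier := {x | ∃ s ∈ q, ∃ P, e s * x = e P}
  zero_mem' := ⟨1, q.one_mem, 0, by simp⟩
  one_mem' := ⟨1, q.one_mem, 1, by simp⟩
  add_mem' := by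
    rintro x y ⟨s, hs, P, hP⟩ ⟨t, ht, T, hT⟩
    refine ⟨s * t, q.mul_mem hs ht, P * t + T * s, ?_⟩
    simp only [map_mul, map_add, ← hP, ← hT]
    ring
  mul_mem' := by
    rintro x y ⟨s, hs, P, hP⟩ ⟨t, ht, T, hT⟩
    refine ⟨s * t, q.mul_mem hs ht, P * T, ?_⟩
    simp only [map_mul, ← hP, ← hT]
    ring
  neg_mem' := by
    rintro x ⟨s, hs, P, hP⟩
    exact ⟨s, hs, -P, by rw [map_neg, ← hP, mul_neg]⟩

theorem mem_locSub {e : R →+* L} {q : Submonoid R} {x : L} :
    x ∈ locSub e q ↔ ∃ s ∈ q, ∃ P, e s * x = e P := Iff.rfl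

theorem map_mem_locSub (e : R →+* L) (q : Submonoid R) (P : R) : e P ∈ locSub e q :=
  ⟨1, q.one_mem, P, by simp⟩

theorem det_mem {ι : Type*} [Fintype ι] [DecidableEq ι] (T : Subring L) {M : Matrix ι ι L}
    (h : ∀ i j, M i j ∈ T) : M.det ∈ T := by
  have : M = T.subtype.mapMatrix (Matrix.of fun i j => (⟨M i j, h i j⟩ : T)) := rfl
  rw [this, ← RingHom.map_det]
  exact Subtype.prop _

end LocSub

section Series

variable {O k : Type*} [CommRing O] [Field k]

theorem coeff_C_mul (a : O) (x : LaurentSeries O) (i : ℤ) :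
    (cC a * x).coeff i = a * x.coeff i := by
  rw [HahnSeries.C_apply, HahnSeries.coeff_single_mul, sub_zero]

theorem coeffMap_C {S : Type*} [CommRing S] (f : O →+* S) (a : O) :
    coeffMap f (cC a) = cC (f a) := by
  rw [HahnSeries.C_apply, coeffMap_single, HahnSeries.C_apply]

theorem C_dvd_iff (a : O) (x : LaurentSeries O) : cC a ∣ x ↔ ∀ i, a ∣ x.coeff i := by
  classical
  constructor
  · rintro ⟨y, rfl⟩ i
    exact ⟨y.coeff i, coeff_C_mul a y i⟩
  · intro h
    choose c hc using h
    refine ⟨⟨fun i => if x.coeff i = 0 then 0 else c i, x.isPWO_support.mono fun i hi => ?_⟩, ?_⟩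
    · intro h0
      exact hi (if_pos h0)
    · ext i
      rw [coeff_C_mul]
      show x.coeff i = a * if x.coeff i = 0 then 0 else c i
      split_ifs with h0
      · rw [h0, mul_zero]
      · exact hc i

end Series

/-- A ring of tuples of series over a polynomial base, with a reduction map. -/
structure Base (O k ι : Type*) [CommRing O] [Field k] [Fintype ι] [DecidableEq ι] where
  res : O →+* k
  res_surjective : Function.Surjective res
  pi : O
  pi_ne_zero : pi ≠ 0
  res_eq_zero : ∀ a, res a = 0 ↔ pi ∣ a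
  S : Subring (ι → LaurentSeries O)
  u : LaurentSeries O
  Q : O[X]
  winv : LaurentSeries O
  winv_mul : winv * Q.eval₂ cC u = 1
  C_mem : ∀ a, (fun _ => cC a) ∈ S
  u_mem : (fun _ => u) ∈ S
  winv_mem : (fun _ => winv) ∈ S
  trans : Function.Injective fun p : k[X] => p.eval₂ cC (coeffMap res u)
  div : ∀ y : ι → LaurentSeries O, (fun l => cC pi * y l) ∈ S → y ∈ S
  symm : ∀ y ∈ S, ∀ i, ∃ (m : ℕ) (P : O[X]),
    (∏ l, (X - C (y l))).coeff i * Q.eval₂ cC u ^ m = P.eval₂ cC u
  sep : ∃ (n : ℕ) (b : Fin n → ι → ι → LaurentSeries O) (P : Fin n → O[X]) (a m : ℕ),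
    (∀ s j, b s j ∈ S) ∧
      ∑ s, (P s).eval₂ cC u * (Matrix.of fun l j => b s j l).det ^ 2
        = cC pi ^ a * Q.eval₂ cC u ^ m
  sepk : ∃ b : ι → ι → LaurentSeries O, (∀ j, b j ∈ S) ∧
    coeffMap res (Matrix.of fun l j => b j l).det ≠ 0

namespace Base

variable {O k ι : Type*} [CommRing O] [Field k] [Fintype ι] [DecidableEq ι]
  (D : Base O k ι)

/-- Evaluation at `u`. -/
def ev : O[X] →+* LaurentSeries O := eval₂RingHom cC D.u

/-- Coefficientwise reduction. -/
def rh : LaurentSeries O →+* LaurentSeries k := coeffMap D.res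

/-- Evaluation at the reduction of `u`. -/
def evk : k[X] →+* LaurentSeries k := eval₂RingHom cC (D.rh D.u)

/-- Coordinatewise reduction. -/
def rS : (ι → LaurentSeries O) →+* (ι → LaurentSeries k) :=
  RingHom.compLeft D.rh ι

@[simp] theorem rS_apply (y : ι → LaurentSeries O) (l : ι) : D.rS y l = D.rh (y l) := rfl

/-- The reduced ring. -/
def Sbar : Subring (ι → LaurentSeries k) := D.S.map D.rS

/-- The reduction of `Q`. -/
def Qk : k[X] := D.Q.map D.res

theorem rh_ev (P : O[X]) : D.rh (D.ev P) = D.evk (P.map D.res) := by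
  simp only [ev, evk, coe_eval₂RingHom, eval₂_map, hom_eval₂]
  congr 1
  ext a
  exact congrArg (fun s => HahnSeries.coeff s _) (coeffMap_C D.res a)

theorem evk_injective : Function.Injective D.evk := D.trans

theorem rh_eq_zero {x : LaurentSeries O} : D.rh x = 0 ↔ cC D.pi ∣ x := by
  rw [C_dvd_iff]
  refine ⟨fun h i => ?_, fun h => ?_⟩
  · rw [← D.res_eq_zero, ← coeffMap_coeff D.res x i]
    exact (congrArg (fun s => HahnSeries.coeff s i) h : _)
  · ext i
    rw [HahnSeries.coeff_zero, rh, coeffMap_coeff, D.res_eq_zero]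
    exact h i

theorem cpi_ne_zero : (cC D.pi : LaurentSeries O) ≠ 0 :=
  fun h => D.pi_ne_zero (HahnSeries.C_injective (h.trans (map_zero _).symm))

theorem evk_Qk_ne_zero : D.evk D.Qk ≠ 0 := by
  intro h
  have := congrArg D.rh D.winv_mul
  rw [map_mul, map_one, show D.Q.eval₂ cC D.u = D.ev D.Q from rfl, D.rh_ev] at this
  rw [show D.evk (D.Q.map D.res) = 0 from h, mul_zero] at this
  exact zero_ne_one this

theorem Qk_ne_zero : D.Qk ≠ 0 := fun h => D.evk_Qk_ne_zero (by rw [h, map_zero])

/-- The base `O[u, 1/Q(u)]`. -/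
def B : Subring (LaurentSeries O) := locSub D.ev (Submonoid.powers D.Q)

/-- The reduced base. -/
def Bk : Subring (LaurentSeries k) := locSub D.evk (Submonoid.powers D.Qk)

theorem rh_mem_Bk {x : LaurentSeries O} (hx : x ∈ D.B) : D.rh x ∈ D.Bk := by
  obtain ⟨s, ⟨m, rfl⟩, P, hP⟩ := hx
  refine ⟨_, ⟨m, rfl⟩, P.map D.res, ?_⟩
  rw [← D.rh_ev P, ← hP, map_mul, D.rh_ev, Polynomial.map_pow]
  rfl

theorem coeff_mem_B {y : ι → LaurentSeries O} (hy : y ∈ D.S) (i : ℕ) :
    (∏ l, (X - C (y l))).coeff i ∈ D.B := by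
  obtain ⟨m, P, h⟩ := D.symm y hy i
  refine ⟨D.Q ^ m, ⟨m, rfl⟩, P, ?_⟩
  rw [map_pow, mul_comm]
  exact h

theorem sum_mem_B {y : ι → LaurentSeries O} (hy : y ∈ D.S) : ∑ l, y l ∈ D.B := by
  rcases Nat.eq_zero_or_pos (Finset.univ : Finset ι).card with h | h
  · rw [Finset.card_eq_zero] at h
    simp [h]
  · have := neg_mem (D.coeff_mem_B hy ((Finset.univ : Finset ι).card - 1))
    rwa [prod_X_sub_C_coeff_card_pred _ _ h, neg_neg] at this

theorem coeff_mem_Bk {z : ι → LaurentSeries k} (hz : z ∈ D.Sbar) (i : ℕ) :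
    (∏ l, (X - C (z l))).coeff i ∈ D.Bk := by
  obtain ⟨y, hy, rfl⟩ := hz
  have := D.rh_mem_Bk (D.coeff_mem_B hy i)
  rw [← Polynomial.coeff_map, Polynomial.map_prod] at this
  simpa using this

/-- The matrix of a tuple. -/
def mat {R : Type*} (b : ι → ι → R) : Matrix ι ι R := Matrix.of fun l j => b j l

omit [Fintype ι] in
theorem mat_update {R : Type*} (b : ι → ι → R) (j : ι) (z : ι → R) :
    mat (Function.update b j z) = (mat b).updateCol j z := by
  ext l i
  by_cases h : i = j
  · subst h; simp [mat]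
  · simp [mat, h]

theorem det_mul_det_mem_B {b b' : ι → ι → LaurentSeries O} (hb : ∀ j, b j ∈ D.S)
    (hb' : ∀ j, b' j ∈ D.S) : (mat b).det * (mat b').det ∈ D.B := by
  rw [← Matrix.det_transpose, ← Matrix.det_mul]
  exact det_mem _ fun i j => D.sum_mem_B (mul_mem (hb i) (hb' j))

theorem rh_det (b : ι → ι → LaurentSeries O) :
    D.rh (mat b).det = (mat fun j => D.rS (b j)).det := D.rh.map_det _

theorem sum_mat {R : Type*} [CommRing R] (b : ι → ι → R) (z : ι → R) (l : ι) :
    ∑ j, ((mat b).updateCol j z).det * b j l = (mat b).det * z l := by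
  have := congrFun (Matrix.mulVec_cramer (mat b) z) l
  rw [Pi.smul_apply, smul_eq_mul] at this
  rw [← this]
  exact Finset.sum_congr rfl fun j _ => by rw [Matrix.cramer_apply, mul_comm]; rfl

/-- Polynomials prime to `f`. -/
def cop {f : k[X]} (hf : Prime f) : Submonoid k[X] where
  carrier := {s | ¬ f ∣ s}
  one_mem' h := hf.not_isUnit (isUnit_of_dvd_one h)
  mul_mem' hs ht h := (hf.dvd_or_dvd h).elim hs ht

theorem powers_le_cop {f : k[X]} (hf : Prime f) (hfQ : ¬ f ∣ D.Qk) :
    Submonoid.powers D.Qk ≤ cop hf :=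
  Submonoid.powers_le.mpr hfQ

theorem exists_pow_mul {f : k[X]} (hf : Prime f) {A : k[X]} (hA : A ≠ 0) :
    ∃ n A', A = f ^ n * A' ∧ ¬ f ∣ A' := by
  obtain ⟨n, a, h1, h2⟩ := WfDvdMonoid.max_power_factor hA hf.irreducible
  exact ⟨n, a, h2, h1⟩

/-- An element of the fraction field which is integral over the reduced base is local at `f`. -/
theorem mem_loc_of_isIntegral {f : k[X]} (hf : Prime f) (hfQ : ¬ f ∣ D.Qk) {x : LaurentSeries k}
    {A P : k[X]} (hA : A ≠ 0) (h : D.evk A * x = D.evk P) (hx : IsIntegral D.Bk x) :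
    x ∈ locSub D.evk (cop hf) := by
  rcases eq_or_ne P 0 with rfl | hP
  · rw [map_zero, mul_eq_zero] at h
    rw [h.resolve_left fun h0 => hA (D.evk_injective (h0.trans (map_zero _).symm))]
    exact zero_mem _
  obtain ⟨a, A', rfl, hA'⟩ := exists_pow_mul hf hA
  obtain ⟨c, P', rfl, hP'⟩ := exists_pow_mul hf hP
  have hf0 : ∀ n : ℕ, D.evk (f ^ n) ≠ 0 := fun n h0 =>
    pow_ne_zero n hf.ne_zero (D.evk_injective (h0.trans (map_zero _).symm))
  rcases le_or_gt a c with hac | hac
  · obtain ⟨d, rfl⟩ := Nat.exists_eq_add_of_le hac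
    refine ⟨A', hA', f ^ d * P', mul_left_cancel₀ (hf0 a) ?_⟩
    rw [← mul_assoc, ← map_mul, h, ← map_mul, pow_add]
    ring_nf
  · exfalso
    obtain ⟨d, rfl⟩ := Nat.exists_eq_add_of_lt hac
    set A'' := f ^ (d + 1) * A' with hA''
    have h' : D.evk A'' * x = D.evk P' := by
      refine mul_left_cancel₀ (hf0 c) ?_
      rw [← mul_assoc, ← map_mul, ← map_mul, ← h, hA'']
      congr 2
      ring
    obtain ⟨p, hp, hpx⟩ := hx
    rw [eval₂_eq_sum_range] at hpx
    choose s hs b hb using fun i => mem_locSub.mp (p.coeff i).2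
    set n := p.natDegree
    set W := ∏ i ∈ Finset.range n, s i
    have key : W * P' ^ n + ∑ i ∈ Finset.range n,
        (∏ j ∈ (Finset.range n).erase i, s j) * b i * P' ^ i * A'' ^ (n - i) = 0 := by
      apply D.evk_injective
      rw [map_zero, map_add, map_sum]
      rw [Finset.sum_range_succ, hp.coeff_natDegree, map_one, one_mul] at hpx
      rw [← mul_eq_zero_of_right (D.evk W * D.evk A'' ^ n) hpx, mul_add, Finset.mul_sum, add_comm]
      congr 1
      · refine Finset.sum_congr rfl fun i hi => ?_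
        rw [show W = s i * ∏ j ∈ (Finset.range n).erase i, s j from
          (Finset.mul_prod_erase _ _ hi).symm]
        obtain ⟨e, he⟩ := Nat.exists_eq_add_of_le (Finset.mem_range.mp hi).le
        simp only [map_mul, map_pow, ← h', ← hb i]
        rw [he, Nat.add_sub_cancel_left]
        rw [show (algebraMap D.Bk (LaurentSeries k)) (p.coeff i) =
          (p.coeff i : LaurentSeries k) from rfl]
        ring
      · simp only [map_mul, map_pow, ← h']
        ring
    have : f ∣ W * P' ^ n := by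
      rw [eq_neg_of_add_eq_zero_left key, dvd_neg]
      refine Finset.dvd_sum fun i hi => dvd_mul_of_dvd_right (dvd_pow ?_ ?_) _
      · exact dvd_mul_of_dvd_left (dvd_pow_self f (Nat.succ_ne_zero d)) _
      · have := Finset.mem_range.mp hi; omega
    rcases hf.dvd_or_dvd this with h1 | h1
    · obtain ⟨i, -, hi⟩ := hf.exists_mem_finset_dvd h1
      exact (D.powers_le_cop hf hfQ (hs i)) hi
    · exact hP' (hf.dvd_of_dvd_pow h1)

end Base

end Fermat.Agent.Connected
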