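import Fermat.Agent.Connected.Global
import Fermat.Agent.Igusa.Base

/-!
# Modular functions with integral expansions at every cusp

For `Γ ≤ SL(2, ℤ)` of finite index, `fRing Γ h ι` is the ring of families of Laurent series in
`exp (2πiτ/h)` over `O`, one for each coset, which are the expansions of an invariant function
holomorphic on the upper half plane.  Main results: `fRing_div`, `fRing_twist` and `fRing_symm_j`.
-/

set_option autoImplicit false

noncomputable section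

open Polynomial ModularCurve UpperHalfPlane
open scoped MatrixGroups Manifold

namespace Fermat.Agent.Connected

local notation "cC" => HahnSeries.C (Γ := ℤ)

open Fermat.Agent.Igusa (HasExp QSR mem_QSR jW hasExp_jW)

/-- Invariance under a subgroup. -/
def Inv (Γ : Subgroup SL(2, ℤ)) (f : ℍ → ℂ) : Prop := ∀ γ ∈ Γ, ∀ τ, f (γ • τ) = f τ

/-- The translate attached to a coset. -/
def tr {Γ : Subgroup SL(2, ℤ)} (f : ℍ → ℂ) (q : SL(2, ℤ) ⧸ Γ) : ℍ → ℂ :=
  fun τ => f (q.out⁻¹ • τ)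

/-- Composition with a group element, as a ring endomorphism. -/
def compHom (g : SL(2, ℤ)) : (ℍ → ℂ) →+* (ℍ → ℂ) where
  toFun f τ := f (g • τ)
  map_one' := rfl
  map_mul' _ _ := rfl
  map_zero' := rfl
  map_add' _ _ := rfl

variable {Γ : Subgroup SL(2, ℤ)}

theorem tr_mk {f : ℍ → ℂ} (hf : Inv Γ f) (g : SL(2, ℤ)) (τ : ℍ) :
    tr f (QuotientGroup.mk g : SL(2, ℤ) ⧸ Γ) τ = f (g⁻¹ • τ) := by
  obtain ⟨γ, hγ⟩ := QuotientGroup.mk_out_eq_mul Γ g
  rw [tr, hγ, mul_inv_rev, mul_smul]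
  exact hf _ (inv_mem γ.2) _

theorem tr_smul {f : ℍ → ℂ} (hf : Inv Γ f) (γ : SL(2, ℤ)) (q : SL(2, ℤ) ⧸ Γ) (τ : ℍ) :
    tr f (γ • q) τ = tr f q (γ⁻¹ • τ) := by
  have e : γ • q = QuotientGroup.mk (γ * q.out) := by
    conv_lhs => rw [← QuotientGroup.out_eq' q]
    rfl
  rw [e]
  rw [tr_mk hf, mul_inv_rev, mul_smul]
  rfl

theorem compHom_tr {f : ℍ → ℂ} (hf : Inv Γ f) (g : SL(2, ℤ)) (q : SL(2, ℤ) ⧸ Γ) :
    compHom g (tr f q) = tr f (g⁻¹ • q) := by
  funext τ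
  rw [tr_smul hf, inv_inv]
  rfl

variable {O : Type*} [CommRing O] (h : ℕ) [NeZero h] (ι : O →+* ℂ)
  (Γ)

/-- **The ring of families of expansions.** -/
def fRing : Subring (SL(2, ℤ) ⧸ Γ → LaurentSeries O) where
  carrier := {s | ∃ f, Inv Γ f ∧ ∀ q, (tr f q, s q) ∈ QSR h ι}
  zero_mem' := ⟨0, fun _ _ _ => rfl, fun _ => zero_mem _⟩
  one_mem' := ⟨1, fun _ _ _ => rfl, fun _ => one_mem _⟩
  add_mem' := by
    rintro s t ⟨f, hf, hfs⟩ ⟨g, hg, hgt⟩
    exact ⟨f + g, fun γ hγ τ => by rw [Pi.add_apply, Pi.add_apply, hf γ hγ τ, hg γ hγ τ],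
      fun q => add_mem (hfs q) (hgt q)⟩
  mul_mem' := by
    rintro s t ⟨f, hf, hfs⟩ ⟨g, hg, hgt⟩
    exact ⟨f * g, fun γ hγ τ => by rw [Pi.mul_apply, Pi.mul_apply, hf γ hγ τ, hg γ hγ τ],
      fun q => mul_mem (hfs q) (hgt q)⟩
  neg_mem' := by
    rintro s ⟨f, hf, hfs⟩
    exact ⟨-f, fun γ hγ τ => by rw [Pi.neg_apply, Pi.neg_apply, hf γ hγ τ],
      fun q => neg_mem (hfs q)⟩

variable {Γ h ι}

omit [NeZero h] in
theorem C_mem_fRing (a : O) : (fun _ => cC a) ∈ fRing Γ h ι := by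
  refine ⟨fun _ => ι a, fun _ _ _ => rfl, fun q => ?_⟩
  rw [mem_QSR, HahnSeries.C_apply, coeffMap_single]
  exact Igusa.hasExp_const h _

theorem jW_mem_fRing : (fun _ => jW O h) ∈ fRing Γ h ι := by
  refine ⟨Igusa.jFun, fun γ _ τ => Igusa.jFun_smul γ τ, fun q => ?_⟩
  rw [mem_QSR, Igusa.coeffMap_jW, show tr Igusa.jFun q = Igusa.jFun from
    funext fun τ => Igusa.jFun_smul _ τ]
  exact hasExp_jW h

theorem coeffMap_inj {R S : Type*} [CommRing R] [CommRing S] (φ : R →+* S)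
    (hφ : Function.Injective φ) : Function.Injective (coeffMap φ) := fun a b hab => by
  ext n
  exact hφ (by rw [← coeffMap_coeff, hab, coeffMap_coeff])

theorem qsr_unique (hι : Function.Injective ι) {f : ℍ → ℂ} {s t : LaurentSeries O}
    (hs : (f, s) ∈ QSR h ι) (ht : (f, t) ∈ QSR h ι) : s = t := by
  have h1 : HasExp h f (coeffMap ι s) := mem_QSR.mp hs
  have h2 : HasExp h f (coeffMap ι t) := mem_QSR.mp ht
  exact coeffMap_inj (R := O) (S := ℂ) ι hι (h1.unique h2)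

omit [NeZero h] in
theorem eq_zero_of_series_zero {f : ℍ → ℂ} (hs : (f, (0 : LaurentSeries O)) ∈ QSR h ι) :
    f = 0 := by
  funext τ
  have := (mem_QSR.mp hs).2 τ
  simp only [map_zero, HahnSeries.coeff_zero, zero_mul] at this
  exact (this.unique hasSum_zero)

theorem fRing_inj (hι : Function.Injective ι) {s : SL(2, ℤ) ⧸ Γ → LaurentSeries O}
    (hs : s ∈ fRing Γ h ι) (q : SL(2, ℤ) ⧸ Γ) (h0 : s q = 0) : s = 0 := by
  obtain ⟨f, hf, hfs⟩ := hs
  have h1 : tr f q = 0 := eq_zero_of_series_zero (h0 ▸ hfs q)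
  have h2 : f = 0 := funext fun τ => by
    have := congrFun h1 (q.out • τ)
    simpa [tr] using this
  funext q'
  have h3 : (tr f q', (0 : LaurentSeries O)) ∈ QSR h ι := by
    rw [h2]
    exact zero_mem _
  exact qsr_unique hι (hfs q') h3

omit [NeZero h] in
theorem fRing_div (hι : Function.Injective ι) {a : O} (ha : a ≠ 0)
    {s : SL(2, ℤ) ⧸ Γ → LaurentSeries O} (hs : (fun q => cC a * s q) ∈ fRing Γ h ι) :
    s ∈ fRing Γ h ι := by
  obtain ⟨f, hf, hfs⟩ := hs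
  have hιa : ι a ≠ 0 := (map_ne_zero_iff ι hι).mpr ha
  refine ⟨fun τ => (ι a)⁻¹ * f τ, fun γ hγ τ => congrArg ((ι a)⁻¹ * ·) (hf γ hγ τ), fun q => ?_⟩
  have h1 := (mem_QSR.mp (hfs q))
  have h2 := (Igusa.hasExp_const h (ι a)⁻¹).mul h1
  rw [mem_QSR]
  convert h2 using 1
  · rfl
  · rw [map_mul, coeffMap_C, ← mul_assoc, ← HahnSeries.C_apply, ← map_mul, inv_mul_cancel₀ hιa,
      map_one, one_mul]

/-- The permutation of cosets given by the translation `τ ↦ τ + 1`. -/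
def shiftPerm (Γ : Subgroup SL(2, ℤ)) : Equiv.Perm (SL(2, ℤ) ⧸ Γ) :=
  MulAction.toPerm (ModularGroup.T⁻¹ : SL(2, ℤ))

theorem fRing_twist (hι : Function.Injective ι) {ζ : Oˣ}
    (hζ : ι ζ = Complex.exp (2 * Real.pi * Complex.I / h))
    {s : SL(2, ℤ) ⧸ Γ → LaurentSeries O} (hs : s ∈ fRing Γ h ι) (q : SL(2, ℤ) ⧸ Γ) (n : ℤ) :
    (s (shiftPerm Γ q)).coeff n = ((ζ ^ n : Oˣ) : O) * (s q).coeff n := by
  obtain ⟨f, hf, hfs⟩ := hs
  set c : ℂˣ := Units.map (ι : O →* ℂ) ζ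
  have h1 := (mem_QSR.mp (hfs q)).comp_affine 1 1 1 (H := h) 1 c fun τ => by
    simp only [Function.Periodic.qParam, Igusa.coe_affine, Nat.cast_one, one_mul, Int.cast_one,
      div_one, pow_one, c, Units.coe_map, MonoidHom.coe_coe, hζ, ← Complex.exp_add]
    congr 1
    push_cast
    ring
  have h2 : tr f q ∘ Igusa.affine 1 1 1 = tr f (shiftPerm Γ q) := by
    funext τ
    rw [shiftPerm, MulAction.toPerm_apply, tr_smul hf, inv_inv, Function.comp_apply]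
    congr 1
    refine UpperHalfPlane.ext ?_
    rw [Igusa.coe_affine, modular_T_smul]
    simp [add_comm]
  rw [h2] at h1
  have h3 := congrArg (fun x : LaurentSeries ℂ => x.coeff n)
    ((mem_QSR.mp (hfs (shiftPerm Γ q))).unique h1)
  simp only [qExpand_one_apply, Igusa.twist_coeff, coeffMap_coeff] at h3
  refine hι (h3.trans ?_)
  rw [map_mul]
  congr 1
  simp only [c, ← map_zpow]
  rfl

omit [NeZero h] in
/-- The `n`-th symmetric function of a finite family of translates. -/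
theorem exists_symm {s : SL(2, ℤ) ⧸ Γ → LaurentSeries O} {f : ℍ → ℂ} (_hf : Inv Γ f)
    (hfs : ∀ q, (tr f q, s q) ∈ QSR h ι) {α : Type*} [Fintype α]
    (σ : α → SL(2, ℤ) ⧸ Γ) (n : ℕ) :
    ((∏ a, (X - C (tr f (σ a)))).coeff n, (∏ a, (X - C (s (σ a)))).coeff n) ∈ QSR h ι := by
  set p : Polynomial (QSR h ι) := ∏ a, (X - C (⟨_, hfs (σ a)⟩ : QSR h ι)) with hp
  have h1 : ((∏ a, (X - C (tr f (σ a)))).coeff n, (∏ a, (X - C (s (σ a)))).coeff n)
      = (p.coeff n : (ℍ → ℂ) × LaurentSeries O) := by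
    refine Prod.ext ?_ ?_
    · have := Polynomial.coeff_map ((RingHom.fst (ℍ → ℂ) (LaurentSeries O)).comp
        (QSR h ι).subtype) n (p := p)
      rw [hp, Polynomial.map_prod] at this
      simpa using this
    · have := Polynomial.coeff_map ((RingHom.snd (ℍ → ℂ) (LaurentSeries O)).comp
        (QSR h ι).subtype) n (p := p)
      rw [hp, Polynomial.map_prod] at this
      simpa using this
  rw [h1]
  exact (p.coeff n).2

theorem compHom_symm {f : ℍ → ℂ} (hf : Inv Γ f) {α : Type*} [Fintype α]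
    (σ : α → SL(2, ℤ) ⧸ Γ) (g : SL(2, ℤ)) (n : ℕ) :
    compHom g ((∏ a, (X - C (tr f (σ a)))).coeff n)
      = (∏ a, (X - C (tr f (g⁻¹ • σ a)))).coeff n := by
  rw [← Polynomial.coeff_map, Polynomial.map_prod]
  simp only [Polynomial.map_sub, Polynomial.map_X, Polynomial.map_C, compHom_tr hf]

theorem fRing_symm_j (hι : Function.Injective ι) [Fintype (SL(2, ℤ) ⧸ Γ)]
    {s : SL(2, ℤ) ⧸ Γ → LaurentSeries O} (hs : s ∈ fRing Γ h ι) (n : ℕ) :
    ∃ P : O[X], (∏ q, (X - C (s q))).coeff n = P.eval₂ cC (jW O h) := by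
  obtain ⟨f, hf, hfs⟩ := hs
  have hm := exists_symm hf hfs (fun q : SL(2, ℤ) ⧸ Γ => q) n
  set F : ℍ → ℂ := (∏ q : SL(2, ℤ) ⧸ Γ, (X - C (tr f q))).coeff n with hF
  have hinv : ∀ (γ : SL(2, ℤ)) τ, F (γ • τ) = F τ := fun γ τ => by
    have h1 := compHom_symm hf (fun q : SL(2, ℤ) ⧸ Γ => q) γ n
    have h2 : (∏ q : SL(2, ℤ) ⧸ Γ, (X - C (tr f (γ⁻¹ • q))))
        = ∏ q : SL(2, ℤ) ⧸ Γ, (X - C (tr f q)) :=
      Equiv.prod_comp (MulAction.toPerm (γ⁻¹ : SL(2, ℤ))) fun q => X - C (tr f q)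
    rw [h2, ← hF] at h1
    exact congrFun h1 τ
  have key := @Igusa.exists_aeval_jW O _ ι hι h _ F ((∏ q, (X - C (s q))).coeff n)
  have k2 := key hm
  obtain ⟨P, hP⟩ := k2 hinv
  exact ⟨P, hP.symm⟩

end Fermat.Agent.Connected
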