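import Fermat.Agent.Connected.Normal

/-!
# Connectedness of the reduced ring

A `Global O k ι κ` adds to a `Base` the expansions at all cusps (indexed by `κ`), the twist by
the local monodromy and a pole-bounding element `j`. Then reduction at a single coordinate is
injective: the special fibre is connected (`rh_eq_zero_of_rh_eq_zero`).
-/

set_option autoImplicit false

noncomputable section

open Polynomial ModularCurve Matrix

namespace Fermat.Agent.Connected

local notation "cC" => HahnSeries.C (Γ := ℤ)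

section Pole

variable {R : Type*} [CommRing R]

/-- All coefficients in degree `< -n` vanish. -/
def PoleBound (n : ℕ) (x : LaurentSeries R) : Prop := ∀ i : ℤ, i < -(n : ℤ) → x.coeff i = 0

theorem PoleBound.mono {n m : ℕ} (h : n ≤ m) {x : LaurentSeries R} (hx : PoleBound n x) :
    PoleBound m x := fun i hi => hx i (by omega)

theorem PoleBound.mul_coeff {a b : ℕ} {x y : LaurentSeries R} (hx : PoleBound a x)
    (hy : PoleBound b y) :
    PoleBound (a + b) (x * y) ∧
      (x * y).coeff (-((a + b : ℕ) : ℤ)) = x.coeff (-(a : ℤ)) * y.coeff (-(b : ℤ)) := by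
  classical
  have key : ∀ p : ℤ × ℤ, x.coeff p.1 ≠ 0 → y.coeff p.2 ≠ 0 →
      -(a : ℤ) ≤ p.1 ∧ -(b : ℤ) ≤ p.2 :=
    fun p h1 h2 => ⟨not_lt.mp fun h => h1 (hx _ h), not_lt.mp fun h => h2 (hy _ h)⟩
  constructor
  · intro i hi
    rw [HahnSeries.coeff_mul]
    refine Finset.sum_eq_zero fun p hp => ?_
    obtain ⟨h1, h2, h3⟩ := Finset.mem_antidiagonal.mp hp
    obtain ⟨h4, h5⟩ := key p h1 h2
    omega
  · rw [HahnSeries.coeff_mul]
    refine (Finset.sum_eq_single (-(a : ℤ), -(b : ℤ)) (fun p hp hne => ?_) fun hnot => ?_)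
    · obtain ⟨h1, h2, h3⟩ := Finset.mem_antidiagonal.mp hp
      obtain ⟨h4, h5⟩ := key p h1 h2
      exact absurd (Prod.ext (by push_cast at *; omega) (by push_cast at *; omega)) hne
    · rw [Finset.mem_antidiagonal] at hnot
      by_contra hne
      exact hnot ⟨left_ne_zero_of_mul hne, right_ne_zero_of_mul hne, by push_cast; ring⟩

theorem PoleBound.pow_coeff {a : ℕ} {x : LaurentSeries R} (hx : PoleBound a x) (m : ℕ) :
    PoleBound (m * a) (x ^ m) ∧
      (x ^ m).coeff (-((m * a : ℕ) : ℤ)) = x.coeff (-(a : ℤ)) ^ m := by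
  induction m with
  | zero =>
    refine ⟨fun i hi => ?_, by simp⟩
    rw [pow_zero, HahnSeries.coeff_one, if_neg (by omega)]
  | succ m ih =>
    rw [pow_succ, Nat.succ_mul]
    refine ⟨(PoleBound.mul_coeff ih.1 hx).1, ?_⟩
    rw [(PoleBound.mul_coeff ih.1 hx).2, ih.2, pow_succ]

theorem eval_coeff_lead {h : ℕ} (hh : 0 < h) {x : LaurentSeries R} (hx : PoleBound h x)
    (h1 : x.coeff (-(h : ℤ)) = 1) {P : R[X]}
    (hP : ∀ n : ℤ, n ≤ 0 → (P.eval₂ cC x).coeff n = 0) : P = 0 := by
  by_contra hne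
  refine Polynomial.leadingCoeff_ne_zero.mpr hne ?_
  have := hP (-((P.natDegree * h : ℕ) : ℤ)) (by omega)
  rw [eval₂_eq_sum_range, HahnSeries.coeff_sum, Finset.sum_eq_single P.natDegree] at this
  · rwa [coeff_C_mul, (hx.pow_coeff _).2, h1, one_pow, mul_one] at this
  · intro i hi hne'
    have hlt : i < P.natDegree :=
      lt_of_le_of_ne (Nat.lt_succ_iff.mp (Finset.mem_range.mp hi)) hne'
    rw [coeff_C_mul, (hx.pow_coeff i).1, mul_zero]
    have : i * h < P.natDegree * h := Nat.mul_lt_mul_of_pos_right hlt hh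
    omega
  · exact fun h' => absurd (Finset.mem_range.mpr (Nat.lt_succ_self _)) h'

end Pole

/-- A ring of tuples of expansions at all cusps over a base with good reduction. -/
structure Global (O k ι κ : Type*) [CommRing O] [Field k] [Fintype ι] [DecidableEq ι]
    [Fintype κ] where
  base : Base O k ι
  emb : ι → κ
  R : Subring (κ → LaurentSeries O)
  C_mem : ∀ a, (fun _ => cC a) ∈ R
  map_S : ∀ y' : ι → LaurentSeries O, y' ∈ base.S ↔ ∃ y ∈ R, (fun l => y (emb l)) = y'
  inj : ∀ y ∈ R, ∀ i, y i = 0 → y = 0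
  sep_pi : ∀ a : O, (∀ n : ℕ, base.pi ^ n ∣ a) → a = 0
  h : ℕ
  h_pos : 0 < h
  T : Equiv.Perm κ
  zeta : Oˣ
  zeta_prim : IsPrimitiveRoot (zeta : O) h
  twist : ∀ y ∈ R, ∀ i (n : ℤ), (y (T i)).coeff n = ((zeta ^ n : Oˣ) : O) * (y i).coeff n
  j : LaurentSeries O
  j_mem : (fun _ => j) ∈ R
  j_pole : PoleBound h j
  j_lead : j.coeff (-(h : ℤ)) = 1
  symm_j : ∀ y ∈ R, ∀ n : ℕ, ∃ P : O[X],
    (∏ i, (Polynomial.X - Polynomial.C (y i))).coeff n = P.eval₂ cC j
  rank : ∃ v : κ → κ → LaurentSeries O, (∀ i, v i ∈ R) ∧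
    ∀ P : κ → O[X], (∀ i', ∑ i, (P i).eval₂ cC j * v i i' = 0) → P = 0

namespace Global

variable {O k ι κ : Type*} [CommRing O] [Field k] [Fintype ι] [DecidableEq ι]
  [Fintype κ] (G : Global O k ι κ)

/-- A function vanishing mod `pi` at the embedded coordinates is divisible by `pi`. -/
theorem exists_eq_pi_mul {y : κ → LaurentSeries O} (hy : y ∈ G.R) (l₀ : ι)
    (h : ∀ l, cC G.base.pi ∣ y (G.emb l)) :
    ∃ Y ∈ G.R, y = fun i => cC G.base.pi * Y i := by
  choose y' hy' using h
  have h1 : (fun l => cC G.base.pi * y' l) ∈ G.base.S :=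
    (G.map_S _).mpr ⟨y, hy, funext hy'⟩
  obtain ⟨Y, hY, hY'⟩ := (G.map_S _).mp (G.base.div _ h1)
  refine ⟨Y, hY, ?_⟩
  have h2 : (y - (fun _ => cC G.base.pi) * Y) ∈ G.R := sub_mem hy (mul_mem (G.C_mem _) hY)
  have h3 := G.inj _ h2 (G.emb l₀) (by simp [hy' l₀, ← congrFun hY' l₀])
  exact sub_eq_zero.mp h3

/-- Elements approximated by `R` modulo all powers of `pi`. -/
def A : Subring (κ → LaurentSeries O) where
  carrier := {s | ∀ N : ℕ, ∃ y ∈ G.R, ∀ i, cC G.base.pi ^ N ∣ y i - s i}
  zero_mem' N := ⟨0, zero_mem _, fun i => by simp⟩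
  one_mem' N := ⟨1, one_mem _, fun i => by simp⟩
  add_mem' := by
    intro s t hs ht N
    obtain ⟨y, hy, hys⟩ := hs N
    obtain ⟨z, hz, hzt⟩ := ht N
    refine ⟨y + z, add_mem hy hz, fun i => ?_⟩
    rw [Pi.add_apply, Pi.add_apply, add_sub_add_comm]
    exact dvd_add (hys i) (hzt i)
  neg_mem' := by
    intro s hs N
    obtain ⟨y, hy, hys⟩ := hs N
    refine ⟨-y, neg_mem hy, fun i => ?_⟩
    rw [Pi.neg_apply, Pi.neg_apply, neg_sub_neg, ← dvd_neg, neg_sub]
    exact hys i
  mul_mem' := by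
    intro s t hs ht N
    obtain ⟨y, hy, hys⟩ := hs N
    obtain ⟨z, hz, hzt⟩ := ht N
    refine ⟨y * z, mul_mem hy hz, fun i => ?_⟩
    rw [Pi.mul_apply, Pi.mul_apply,
      show y i * z i - s i * t i = (y i - s i) * z i + s i * (z i - t i) by ring]
    exact dvd_add (dvd_mul_of_dvd_left (hys i) _) (dvd_mul_of_dvd_right (hzt i) _)

theorem mem_A_of_mem {y : κ → LaurentSeries O} (hy : y ∈ G.R) : y ∈ G.A :=
  fun _ => ⟨y, hy, fun i => by simp⟩

variable [IsDomain O] in
theorem A_saturated (l₀ : ι) {s : κ → LaurentSeries O}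
    (hs : (fun i => cC G.base.pi * s i) ∈ G.A) : s ∈ G.A := by
  intro N
  obtain ⟨y, hy, hys⟩ := hs (N + 1)
  have hdvd : ∀ l, cC G.base.pi ∣ y (G.emb l) := fun l => by
    have h1 := dvd_add ((dvd_pow_self (cC G.base.pi) (Nat.succ_ne_zero N)).trans (hys (G.emb l)))
      (dvd_mul_right (cC G.base.pi) (s (G.emb l)))
    rwa [sub_add_cancel] at h1
  obtain ⟨Y, hY, rfl⟩ := G.exists_eq_pi_mul hy l₀ hdvd
  refine ⟨Y, hY, fun i => (mul_dvd_mul_iff_left G.base.cpi_ne_zero).mp ?_⟩
  rw [← pow_succ', mul_sub]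
  exact hys i

theorem eq_zero_of_forall_dvd {x : LaurentSeries O} (h : ∀ N : ℕ, cC G.base.pi ^ N ∣ x) :
    x = 0 := by
  ext n
  refine G.sep_pi _ fun N => ?_
  have := h N
  rw [← map_pow, C_dvd_iff] at this
  exact this n

theorem A_twist {s : κ → LaurentSeries O} (hs : s ∈ G.A) (i : κ) (n : ℤ) :
    (s (G.T i)).coeff n = ((G.zeta ^ n : Oˣ) : O) * (s i).coeff n := by
  refine sub_eq_zero.mp (G.sep_pi _ fun N => ?_)
  obtain ⟨y, hy, hys⟩ := hs N
  have h1 := hys (G.T i)
  have h2 := hys i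
  rw [← map_pow, C_dvd_iff] at h1 h2
  specialize h1 n
  specialize h2 n
  rw [HahnSeries.coeff_sub, G.twist y hy] at h1
  rw [HahnSeries.coeff_sub] at h2
  convert dvd_sub (dvd_mul_of_dvd_right h2 ((G.zeta ^ n : Oˣ) : O)) h1 using 1
  ring

theorem pow_eq_zero_of_forall_pos {z : κ → LaurentSeries k}
    (hsym : ∀ n : ℕ, ∃ P : k[X],
      (∏ i, (Polynomial.X - Polynomial.C (z i))).coeff n = P.eval₂ cC (G.base.rh G.j))
    (hpos : ∀ i (n : ℤ), n ≤ 0 → (z i).coeff n = 0) (i : κ) : z i = 0 := by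
  classical
  set φ := HahnSeries.ofPowerSeries ℤ k
  have hlift : ∀ i, ∃ p : PowerSeries k, φ p = z i ∧ PowerSeries.constantCoeff p = 0 := fun i => by
    refine ⟨PowerSeries.mk fun n => (z i).coeff n, ?_, by simpa using hpos i 0 le_rfl⟩
    ext n
    rcases lt_or_ge n 0 with hn | hn
    · rw [hpos i n hn.le, HahnSeries.ofPowerSeries_apply]
      exact HahnSeries.embDomain_of_notMem_range fun ⟨m, hm⟩ => by simp at hm; omega
    · lift n to ℕ using hn
      rw [HahnSeries.ofPowerSeries_apply_coeff, PowerSeries.coeff_mk]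
  choose p hp hp0 using hlift
  set P : (LaurentSeries k)[X] := ∏ i, (Polynomial.X - Polynomial.C (z i)) with hP
  set P0 : (PowerSeries k)[X] := ∏ i, (Polynomial.X - Polynomial.C (p i)) with hP0
  have hmap : P0.map φ = P := by
    rw [hP0, Polynomial.map_prod, hP]
    simp [hp]
  have hconst : P0.map (PowerSeries.constantCoeff (R := k))
      = Polynomial.X ^ Fintype.card κ := by
    rw [hP0, Polynomial.map_prod]
    simp [hp0]
  have hj : PoleBound G.h (G.base.rh G.j) := fun n hn => by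
    rw [Base.rh, coeffMap_coeff, G.j_pole n hn, map_zero]
  have hj1 : (G.base.rh G.j).coeff (-(G.h : ℤ)) = 1 := by
    rw [Base.rh, coeffMap_coeff, G.j_lead, map_one]
  have hlow : ∀ n < Fintype.card κ, P.coeff n = 0 := fun n hn => by
    obtain ⟨Q, hQ⟩ := hsym n
    have hQ0 : Q = 0 := eval_coeff_lead G.h_pos hj hj1 fun m hm => by
      rw [← hQ, ← hmap, Polynomial.coeff_map]
      rcases lt_or_eq_of_le hm with hm | rfl
      · rw [HahnSeries.ofPowerSeries_apply]
        exact HahnSeries.embDomain_of_notMem_range fun ⟨a, ha⟩ => by simp at ha; omega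
      · have := congrArg (fun q : k[X] => q.coeff n) hconst
        rw [Polynomial.coeff_map, Polynomial.coeff_X_pow, if_neg (Nat.ne_of_lt hn)] at this
        rw [show (0 : ℤ) = ((0 : ℕ) : ℤ) from rfl, HahnSeries.ofPowerSeries_apply_coeff,
          PowerSeries.coeff_zero_eq_constantCoeff_apply]
        exact this
    rw [hQ, hQ0, eval₂_zero]
  have hdeg : P.natDegree = Fintype.card κ := by
    rw [hP, natDegree_prod_of_monic _ _ fun i _ => monic_X_sub_C _]
    simp
  have hmonic : P.Monic := monic_prod_of_monic _ _ fun i _ => monic_X_sub_C _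
  have h0 : P.eval (z i) = 0 := by
    rw [hP, eval_prod]
    exact Finset.prod_eq_zero (Finset.mem_univ i) (by simp)
  rw [eval_eq_sum_range, hdeg, Finset.sum_range_succ, Finset.sum_eq_zero fun n hn => by
    rw [hlow n (Finset.mem_range.mp hn), zero_mul]] at h0
  rw [zero_add, ← hdeg, hmonic.coeff_natDegree, one_mul] at h0
  exact eq_zero_of_pow_eq_zero h0

variable [IsDomain O] in
/-- An element of `A` with all orders positive is zero. -/
theorem A_eq_zero_of_pos (l₀ : ι) {s : κ → LaurentSeries O} (hs : s ∈ G.A)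
    (hpos : ∀ i (n : ℤ), n ≤ 0 → (s i).coeff n = 0) : s = 0 := by
  have key : ∀ N : ℕ, ∀ t ∈ G.A, (∀ i (n : ℤ), n ≤ 0 → (t i).coeff n = 0) →
      ∀ i, cC G.base.pi ^ N ∣ t i := by
    intro N
    induction N with
    | zero => exact fun t _ _ i => by simp
    | succ N ih =>
      intro t ht htpos
      obtain ⟨y, hy, hyt⟩ := ht 1
      have hrh : ∀ i, G.base.rh (y i) = G.base.rh (t i) := fun i => by
        rw [← sub_eq_zero, ← map_sub, G.base.rh_eq_zero]
        simpa using hyt i
      have hsym : ∀ n : ℕ, ∃ P : k[X],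
          (∏ i, (Polynomial.X - Polynomial.C (G.base.rh (y i)))).coeff n
            = P.eval₂ cC (G.base.rh G.j) := fun n => by
        obtain ⟨P, hP⟩ := G.symm_j y hy n
        refine ⟨P.map G.base.res, ?_⟩
        have := congrArg G.base.rh hP
        rw [← Polynomial.coeff_map, Polynomial.map_prod, hom_eval₂] at this
        rw [eval₂_map]
        simp only [Polynomial.map_sub, Polynomial.map_X, Polynomial.map_C] at this
        refine this.trans ?_
        congr 1
        exact RingHom.ext fun a => coeffMap_C G.base.res a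
      have hz : ∀ i, G.base.rh (y i) = 0 := fun i =>
        G.pow_eq_zero_of_forall_pos hsym (fun i n hn => by
          rw [hrh, Base.rh, coeffMap_coeff, htpos i n hn, map_zero]) i
      have hdvd : ∀ i, cC G.base.pi ∣ t i := fun i => by
        rw [← G.base.rh_eq_zero, ← hrh i, hz i]
      choose t' ht' using hdvd
      have ht'A : t' ∈ G.A := by
        refine G.A_saturated l₀ ?_
        rwa [show (fun i => cC G.base.pi * t' i) = t from funext fun i => (ht' i).symm]
      have ht'pos : ∀ i (n : ℤ), n ≤ 0 → (t' i).coeff n = 0 := fun i n hn => by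
        have := htpos i n hn
        rw [ht' i, coeff_C_mul] at this
        exact (mul_eq_zero.mp this).resolve_left G.base.pi_ne_zero
      intro i
      rw [pow_succ', ht' i]
      exact mul_dvd_mul_left _ (ih t' ht'A ht'pos i)
  funext i
  exact G.eq_zero_of_forall_dvd fun N => key N s hs hpos i

/-- The principal parts of pole order at most `h * m`, summed over residues modulo `h`. -/
def principal (m : ℕ) :
    (κ → LaurentSeries O) →ₗ[O] (Fin (m + 1) × κ → FractionRing O) where
  toFun s bi := algebraMap O (FractionRing O) (∑ r : Fin G.h,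
    if ((bi.1 : ℕ) : ℤ) * G.h + (r : ℕ) - (m : ℤ) * G.h ≤ 0 then
      (s bi.2).coeff (((bi.1 : ℕ) : ℤ) * G.h + (r : ℕ) - (m : ℤ) * G.h) else 0)
  map_add' s t := by
    funext bi
    simp only [Pi.add_apply, HahnSeries.coeff_add, ← map_add, ← Finset.sum_add_distrib]
    congr 1
    refine Finset.sum_congr rfl fun r _ => ?_
    split_ifs <;> simp
  map_smul' c s := by
    funext bi
    simp only [Pi.smul_apply, HahnSeries.coeff_smul, RingHom.id_apply, smul_eq_mul,
      Algebra.smul_def, ← map_mul, Finset.mul_sum]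
    congr 1
    refine Finset.sum_congr rfl fun r _ => ?_
    split_ifs <;> simp

variable [IsDomain O] in
theorem A_eq_zero_of_principal (l₀ : ι) {m : ℕ} {s : κ → LaurentSeries O} (hs : s ∈ G.A)
    (hpole : ∀ i, PoleBound (m * G.h) (s i)) (h0 : G.principal m s = 0) : s = 0 := by
  refine G.A_eq_zero_of_pos l₀ hs fun i n hn => ?_
  rcases lt_or_ge n (-((m * G.h : ℕ) : ℤ)) with hlt | hge
  · exact hpole i n hlt
  push_cast at hge
  have hh : (0 : ℤ) < G.h := by exact_mod_cast G.h_pos
  set b := (n + m * G.h) / G.h with hb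
  set r := (n + m * G.h) % G.h with hr
  have hbr : b * G.h + r = n + m * G.h := by
    rw [hb, hr, mul_comm]; exact Int.mul_ediv_add_emod _ _
  have hb0 : 0 ≤ b := Int.ediv_nonneg (by linarith) hh.le
  have hbm : b ≤ m := by
    rw [hb]
    exact Int.ediv_le_of_le_mul hh (by linarith)
  have hr0 : 0 ≤ r := Int.emod_nonneg _ hh.ne'
  have hrh : r < G.h := Int.emod_lt_of_pos _ hh
  lift b to ℕ using hb0 with b'
  lift r to ℕ using hr0 with r'
  set e : Fin G.h → ℤ := fun r => (b' : ℤ) * G.h + (r : ℕ) - (m : ℤ) * G.h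
  set f : Fin G.h → O := fun r => if e r ≤ 0 then (s i).coeff (e r) else 0
  have hpow : ∀ (r : Fin G.h), ((G.zeta ^ e r : Oˣ) : O) = (G.zeta : O) ^ (r : ℕ) := fun r => by
    have h1 : (G.zeta : Oˣ) ^ (G.h : ℤ) = 1 := by
      rw [zpow_natCast]
      exact Units.ext (by simpa using G.zeta_prim.pow_eq_one)
    rw [show e r = (G.h : ℤ) * ((b' : ℤ) - m) + ((r : ℕ) : ℤ) from by simp only [e]; ring,
      _root_.zpow_add, _root_.zpow_mul, h1, _root_.one_zpow, one_mul, zpow_natCast,
      Units.val_pow_eq_pow_val]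
  have hiter : ∀ (t : ℕ) (r : Fin G.h),
      (s ((G.T^[t]) i)).coeff (e r) = ((G.zeta : O) ^ (r : ℕ)) ^ t * (s i).coeff (e r) := by
    intro t r
    induction t with
    | zero => simp
    | succ t ih =>
      rw [Function.iterate_succ_apply', G.A_twist hs, ih, hpow]
      ring
  have hsum : ∀ t : Fin G.h, ∑ r : Fin G.h, f r * ((G.zeta : O) ^ (t : ℕ)) ^ (r : ℕ) = 0 := by
    intro t
    have h1 := congrFun h0 (⟨b', by omega⟩, (G.T^[(t : ℕ)]) i)
    have h2 : (∑ r : Fin G.h, if e r ≤ 0 then (s ((G.T^[(t : ℕ)]) i)).coeff (e r) else 0) = 0 :=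
      IsFractionRing.injective O (FractionRing O) (h1.trans (map_zero _).symm)
    refine Eq.trans (Finset.sum_congr rfl fun r _ => ?_) h2
    simp only [f, hiter]
    split_ifs
    · rw [← pow_mul, ← pow_mul, mul_comm (t : ℕ)]; ring
    · rw [zero_mul]
  have hinj : Function.Injective fun t : Fin G.h => (G.zeta : O) ^ (t : ℕ) := fun a b hab =>
    Fin.ext (G.zeta_prim.pow_inj a.isLt b.isLt hab)
  have hf := congrFun (Matrix.eq_zero_of_forall_index_sum_mul_pow_eq_zero hinj hsum)
    ⟨r', by omega⟩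
  have he : e ⟨r', by omega⟩ = n := by simp only [e]; omega
  simp only [f, he, if_pos hn, Pi.zero_apply] at hf
  exact hf

/-- Idempotent lifting modulo every power of `pi`. -/
theorem exists_approx_idem {Y₀ : κ → LaurentSeries O} (hY₀ : Y₀ ∈ G.R)
    (h : ∀ i, cC G.base.pi ∣ Y₀ i ^ 2 - Y₀ i) :
    ∀ N : ℕ, ∃ Y ∈ G.R, ∀ i, cC G.base.pi ^ (N + 1) ∣ Y i ^ 2 - Y i ∧
      cC G.base.pi ∣ Y i - Y₀ i := by
  intro N
  induction N with
  | zero => exact ⟨Y₀, hY₀, fun i => ⟨by simpa using h i, by simp⟩⟩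
  | succ N ih =>
    obtain ⟨Y, hY, hYi⟩ := ih
    refine ⟨3 * Y ^ 2 - 2 * Y ^ 3, sub_mem (mul_mem (ofNat_mem G.R 3) (pow_mem hY 2))
      (mul_mem (ofNat_mem G.R 2) (pow_mem hY 3)), fun i => ?_⟩
    obtain ⟨h1, h2⟩ := hYi i
    have hY' : (3 * Y ^ 2 - 2 * Y ^ 3 : κ → LaurentSeries O) i = 3 * Y i ^ 2 - 2 * Y i ^ 3 := rfl
    rw [hY']
    constructor
    · rw [show (3 * Y i ^ 2 - 2 * Y i ^ 3) ^ 2 - (3 * Y i ^ 2 - 2 * Y i ^ 3)
        = (Y i ^ 2 - Y i) ^ 2 * (4 * (Y i ^ 2 - Y i) - 3) by ring]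
      refine dvd_mul_of_dvd_left ((pow_dvd_pow _ ?_).trans (pow_mul (cC G.base.pi) (N + 1) 2 ▸
        pow_dvd_pow_of_dvd h1 2)) _
      omega
    · rw [show 3 * Y i ^ 2 - 2 * Y i ^ 3 - Y₀ i
        = (Y i ^ 2 - Y i) * (1 - 2 * Y i) + (Y i - Y₀ i) by ring]
      exact dvd_add (dvd_mul_of_dvd_left ((dvd_pow_self _ (Nat.succ_ne_zero N)).trans h1) _) h2

theorem pow_dvd_of_dvd_idem {x : LaurentSeries O} {N : ℕ}
    (h : cC G.base.pi ^ N ∣ x ^ 2 - x) (hx : cC G.base.pi ∣ x) : cC G.base.pi ^ N ∣ x := by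
  have : x = -(x ^ 2 - x) * (∑ i ∈ Finset.range N, x ^ i) + x ^ (N + 1) := by
    have := geom_sum_mul_neg x N
    linear_combination -x * this
  rw [this]
  exact dvd_add (dvd_mul_of_dvd_left (dvd_neg.mpr h) _)
    ((pow_dvd_pow _ (Nat.le_succ N)).trans (pow_dvd_pow_of_dvd hx _))

variable [IsDomain O] in
/-- **Connectedness**: reduction at one embedded coordinate is injective. -/
theorem rh_eq_zero_of_rh_eq_zero {y : κ → LaurentSeries O} (hy : y ∈ G.R) {l₀ : ι}
    (hl₀ : G.base.rh (y (G.emb l₀)) = 0) (i : κ) : G.base.rh (y i) = 0 := by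
  classical
  by_cases hall : ∀ l, G.base.rh (y (G.emb l)) = 0
  · obtain ⟨Y, -, rfl⟩ := G.exists_eq_pi_mul hy l₀ fun l => G.base.rh_eq_zero.mp (hall l)
    exact G.base.rh_eq_zero.mpr (dvd_mul_right _ _)
  exfalso
  push Not at hall
  obtain ⟨l₁, hl₁⟩ := hall
  have hz : (fun l => G.base.rh (y (G.emb l))) ∈ G.base.Sbar :=
    ⟨fun l => y (G.emb l), (G.map_S _).mpr ⟨y, hy, rfl⟩, rfl⟩
  obtain ⟨Y₀', hY₀', he⟩ := G.base.zeroIdem_mem_Sbar hz
  obtain ⟨Y₀, hY₀, rfl⟩ := (G.map_S _).mp hY₀'
  have hY₀sq : Y₀ ^ 2 - Y₀ ∈ G.R := sub_mem (pow_mem hY₀ 2) hY₀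
  obtain ⟨W, -, hW⟩ := G.exists_eq_pi_mul hY₀sq l₀ fun l => by
    rw [← G.base.rh_eq_zero]
    have := congrFun he l
    simp only [Base.rS_apply] at this
    simp only [Pi.sub_apply, Pi.pow_apply, map_sub, map_pow, this]
    split_ifs <;> simp
  have hdvd : ∀ i, cC G.base.pi ∣ Y₀ i ^ 2 - Y₀ i := fun i => ⟨W i, congrFun hW i⟩
  set ε : κ → LaurentSeries O := fun i => if G.base.rh (Y₀ i) = 0 then 0 else 1 with hε
  have hεA : ε ∈ G.A := by
    intro N
    obtain ⟨Y, hY, hYi⟩ := G.exists_approx_idem hY₀ hdvd N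
    refine ⟨Y, hY, fun i => ?_⟩
    obtain ⟨h1, h2⟩ := hYi i
    have h1' := (pow_dvd_pow (cC G.base.pi) (Nat.le_succ N)).trans h1
    have hYY : G.base.rh (Y i) = G.base.rh (Y₀ i) := by
      rw [← sub_eq_zero, ← map_sub, G.base.rh_eq_zero]
      exact h2
    simp only [hε]
    split_ifs with h0
    · rw [sub_zero]
      exact G.pow_dvd_of_dvd_idem h1' (G.base.rh_eq_zero.mp (hYY.trans h0))
    · rw [← neg_sub, dvd_neg]
      refine G.pow_dvd_of_dvd_idem (by rw [show (1 - Y i) ^ 2 - (1 - Y i) = Y i ^ 2 - Y i by ring]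
                                       exact h1') (G.base.rh_eq_zero.mp ?_)
      have h3 := (G.base.rh_eq_zero.mpr (hdvd i) : _)
      rw [map_sub, map_pow, pow_two, ← mul_sub_one, mul_eq_zero] at h3
      rw [map_sub, map_one, hYY, sub_eq_zero]
      exact (sub_eq_zero.mp (h3.resolve_left h0)).symm
  have hε₀ : ε (G.emb l₀) = 1 := by
    have := congrFun he l₀
    simp only [Base.rS_apply, hl₀, if_pos] at this
    simp only [hε, this, if_neg one_ne_zero]
  have hε₁ : ε (G.emb l₁) = 0 := by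
    have := congrFun he l₁
    simp only [Base.rS_apply, if_neg hl₁] at this
    simp only [hε, this, if_pos]
  obtain ⟨v, hv, hrank⟩ := G.rank
  let w : Option κ → κ → LaurentSeries O := fun o => o.elim ε v
  have hwA : ∀ o, w o ∈ G.A := by
    intro o
    cases o with
    | none => exact hεA
    | some a => exact G.mem_A_of_mem (hv a)
  set c : ℕ := ∑ o, ∑ i, (w o i).order.natAbs with hc
  have hwpole : ∀ o i, PoleBound (c * G.h) (w o i) := fun o i n hn => by
    apply HahnSeries.coeff_eq_zero_of_lt_order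
    have h1 : (w o i).order.natAbs ≤ c := by
      refine le_trans ?_ (Finset.single_le_sum (f := fun o => ∑ i, (w o i).order.natAbs)
        (fun _ _ => Nat.zero_le _) (Finset.mem_univ o))
      exact Finset.single_le_sum (f := fun i => (w o i).order.natAbs) (fun _ _ => Nat.zero_le _)
        (Finset.mem_univ i)
    have h2 : c ≤ c * G.h := Nat.le_mul_of_pos_right c G.h_pos
    omega
  set d := Fintype.card κ with hd
  set M := (c + 1) * d + 1 with hM
  let fam : Option κ × Fin M → κ → LaurentSeries O := fun p i => G.j ^ (p.2 : ℕ) * w p.1 i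
  have hfamA : ∀ p, fam p ∈ G.A := fun p =>
    mul_mem (G.mem_A_of_mem (pow_mem G.j_mem (p.2 : ℕ))) (hwA p.1)
  have hfampole : ∀ p i, PoleBound ((M + c) * G.h) (fam p i) := fun p i => by
    refine (PoleBound.mul_coeff (G.j_pole.pow_coeff (p.2 : ℕ)).1 (hwpole p.1 i)).1.mono ?_
    rw [add_mul]
    exact Nat.add_le_add_right (Nat.mul_le_mul_right _ p.2.isLt.le) _
  have hdep : ¬ LinearIndependent O fun p => G.principal (M + c) (fam p) := by
    rw [LinearIndependent.iff_fractionRing O (FractionRing O)]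
    intro hli
    have := hli.fintype_card_le_finrank
    rw [Module.finrank_fintype_fun_eq_card, Fintype.card_prod, Fintype.card_prod,
      Fintype.card_option, Fintype.card_fin, Fintype.card_fin, ← hd] at this
    have h1 : (M + c + 1) * d = M * d + (c + 1) * d := by ring
    rw [h1, add_mul, one_mul] at this
    rw [mul_comm d M] at this
    omega
  rw [Fintype.not_linearIndependent_iff] at hdep
  obtain ⟨g, hg, p₀, hp₀⟩ := hdep
  have hrel : ∑ p, g p • fam p = 0 := by
    refine G.A_eq_zero_of_principal (m := M + c) l₀ ?_ ?_ (by rw [map_sum]; simpa using hg)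
    · refine sum_mem fun p _ => ?_
      have : g p • fam p = (fun _ => cC (g p)) * fam p := by
        funext i
        ext n
        rw [Pi.smul_apply, Pi.mul_apply, coeff_C_mul, HahnSeries.coeff_smul, smul_eq_mul]
      rw [this]
      exact mul_mem (G.mem_A_of_mem (G.C_mem _)) (hfamA p)
    · intro i n hn
      rw [Finset.sum_apply, HahnSeries.coeff_sum]
      exact Finset.sum_eq_zero fun p _ => by
        rw [Pi.smul_apply, HahnSeries.coeff_smul, hfampole p i n hn, smul_zero]
  set P : Option κ → O[X] := fun o => ∑ t : Fin M, Polynomial.monomial (t : ℕ) (g (o, t)) with hP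
  have hPw : ∀ i, ∑ o, (P o).eval₂ cC G.j * w o i = 0 := fun i => by
    have := congrFun hrel i
    rw [Finset.sum_apply, Fintype.sum_prod_type, Pi.zero_apply] at this
    rw [← this]
    refine Finset.sum_congr rfl fun o _ => ?_
    rw [hP, eval₂_finsetSum, Finset.sum_mul]
    refine Finset.sum_congr rfl fun t _ => ?_
    rw [eval₂_monomial, mul_assoc, Pi.smul_apply, HahnSeries.C_mul_eq_smul]
  have hP₀ : P none ≠ 0 := by
    intro h0
    have hsome : (fun a => P (some a)) = 0 := hrank _ fun i => by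
      have := hPw i
      rw [Fintype.sum_option, h0, eval₂_zero, zero_mul, zero_add] at this
      exact this
    obtain ⟨o, t⟩ := p₀
    refine hp₀ ?_
    have hPo : P o = 0 := by
      cases o with
      | none => exact h0
      | some a => exact congrFun hsome a
    have := congrArg (fun q : O[X] => q.coeff (t : ℕ)) hPo
    simp only [hP, finsetSum_coeff, Polynomial.coeff_monomial, Polynomial.coeff_zero] at this
    rwa [Finset.sum_eq_single t (fun b _ hb => if_neg fun h => hb (Fin.ext h))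
      (fun h => absurd (Finset.mem_univ t) h), if_pos rfl] at this
  set r : κ → LaurentSeries O := fun i => (P none).eval₂ cC G.j * ε i with hr
  have hrR : r ∈ G.R := by
    have : r = -∑ a, (∑ t : Fin M, (fun _ => cC (g (some a, t))) * (fun _ => G.j) ^ (t : ℕ)) *
        v a := by
      funext i
      have := hPw i
      rw [Fintype.sum_option] at this
      rw [Pi.neg_apply, Finset.sum_apply, eq_neg_iff_add_eq_zero, ← this]
      congr 1
      refine Finset.sum_congr rfl fun a _ => ?_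
      simp only [hP, eval₂_finsetSum, eval₂_monomial, Pi.mul_apply, Finset.sum_apply,
        Pi.pow_apply]
      rfl
    rw [this]
    exact neg_mem (sum_mem fun a _ => mul_mem (sum_mem fun t _ =>
      mul_mem (G.C_mem _) (pow_mem G.j_mem _)) (hv a))
  have hr0 := congrFun (G.inj r hrR (G.emb l₁) (by simp [hr, hε₁])) (G.emb l₀)
  simp only [hr, hε₀, mul_one, Pi.zero_apply] at hr0
  exact hP₀ (eval_coeff_lead G.h_pos G.j_pole G.j_lead fun n _ => by rw [hr0]; simp)

end Global

end Fermat.Agent.Connected
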