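import Fermat.Agent.Connected.Functions

/-!
# Functions on a genus zero base group

`Haupt` is the data of a generator `u` of the functions on a normal subgroup `Γb`, with integral
expansions at all cusps. Every function on `Γb` with integral expansions is a polynomial in `u`
divided by a power of `Q(u)` (`Haupt.exists_poly`).
-/

set_option autoImplicit false

noncomputable section

open Polynomial ModularCurve UpperHalfPlane
open scoped MatrixGroups Manifold

namespace Fermat.Agent.Connected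

local notation "cC" => HahnSeries.C (Γ := ℤ)

open Fermat.Agent.Igusa (HasExp QSR mem_QSR jW)

theorem PoleBound.mul {R : Type*} [CommRing R] {a b : ℕ} {x y : LaurentSeries R}
    (hx : PoleBound a x) (hy : PoleBound b y) : PoleBound (a + b) (x * y) := (hx.mul_coeff hy).1

theorem PoleBound.sum {R : Type*} [CommRing R] {a : ℕ} {α : Type*} (s : Finset α)
    {x : α → LaurentSeries R} (h : ∀ i ∈ s, PoleBound a (x i)) : PoleBound a (∑ i ∈ s, x i) :=
  fun n hn => by
    rw [HahnSeries.coeff_sum]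
    exact Finset.sum_eq_zero fun i hi => h i hi n hn

theorem poleBound_C {R : Type*} [CommRing R] (a : R) : PoleBound 0 (cC a) := fun n hn => by
  rw [HahnSeries.C_apply, HahnSeries.coeff_single_of_ne (by omega)]

theorem PoleBound.eval {R : Type*} [CommRing R] {x : LaurentSeries R} (hx : PoleBound 0 x)
    (P : R[X]) : PoleBound 0 (P.eval₂ cC x) := by
  rw [eval₂_eq_sum_range]
  refine PoleBound.sum _ fun i _ => ?_
  have := (poleBound_C (P.coeff i)).mul (hx.pow_coeff i).1
  rwa [Nat.mul_zero, Nat.add_zero] at this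

theorem PoleBound.prod_coeff_zero {R : Type*} [CommRing R] {α : Type*} (s : Finset α)
    {x : α → LaurentSeries R} (h : ∀ i ∈ s, PoleBound 0 (x i)) :
    PoleBound 0 (∏ i ∈ s, x i) ∧ (∏ i ∈ s, x i).coeff 0 = ∏ i ∈ s, (x i).coeff 0 := by
  classical
  induction s using Finset.induction with
  | empty =>
    refine ⟨fun n hn => ?_, by simp⟩
    rw [Finset.prod_empty, HahnSeries.coeff_one, if_neg (by omega)]
  | insert a s ha ih =>
    obtain ⟨h1, h2⟩ := ih fun i hi => h i (Finset.mem_insert_of_mem hi)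
    rw [Finset.prod_insert ha, Finset.prod_insert ha]
    obtain ⟨h3, h4⟩ := (h a (Finset.mem_insert_self a s)).mul_coeff h1
    refine ⟨by simpa using h3, ?_⟩
    rw [← h2]
    simpa using h4

variable {O : Type*} [CommRing O] [IsDomain O] {h : ℕ} [NeZero h] {ι : O →+* ℂ}

/-- The coset of `1`. -/
abbrev one (Γ : Subgroup SL(2, ℤ)) : SL(2, ℤ) ⧸ Γ := QuotientGroup.mk 1

/-- The orbit of the cusp at infinity. -/
def cuspOrbit (Γ : Subgroup SL(2, ℤ)) : Set (SL(2, ℤ) ⧸ Γ) :=
  {q | ∃ i : ℤ, q = (ModularGroup.T ^ i : SL(2, ℤ)) • one Γ}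

/-- A generator of the functions on a base group, with integral expansions. -/
structure HauptU (O : Type*) [CommRing O] [IsDomain O] (h : ℕ) [NeZero h] (ι : O →+* ℂ) where
  ι_injective : Function.Injective ι
  zeta : Oˣ
  zeta_spec : ι zeta = Complex.exp (2 * Real.pi * Complex.I / h)
  Γb : Subgroup SL(2, ℤ)
  finite : Fintype (SL(2, ℤ) ⧸ Γb)
  e : ℕ
  period : ℕ
  e_mul_period : e * period = h
  period_mem : (ModularGroup.T ^ (period : ℤ) : SL(2, ℤ)) ∈ Γb
  uS : SL(2, ℤ) ⧸ Γb → LaurentSeries O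
  uS_mem : uS ∈ fRing Γb h ι
  u_pole : PoleBound e (uS (one Γb))
  u_lead : IsUnit ((uS (one Γb)).coeff (-(e : ℤ)))
  u_bdd : ∀ q ∉ cuspOrbit Γb, PoleBound 0 (uS q)

/-- A Hauptmodul with a polynomial in it vanishing at the other cusps. -/
structure Haupt (O : Type*) [CommRing O] [IsDomain O] (h : ℕ) [NeZero h] (ι : O →+* ℂ)
    extends HauptU O h ι where
  wS : SL(2, ℤ) ⧸ Γb → LaurentSeries O
  wS_mem : wS ∈ fRing Γb h ι
  Q : O[X]
  wS_mul : wS (one Γb) * Q.eval₂ cC (uS (one Γb)) = 1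
  Q_pos : ∀ q ∉ cuspOrbit Γb, ((Q.eval₂ cC (uS q)).coeff 0) = 0

namespace HauptU

variable (H : HauptU O h ι)

attribute [local instance] HauptU.finite

/-- The value of `u` at infinity. -/
def u : LaurentSeries O := H.uS (one H.Γb)

theorem zeta_prim : IsPrimitiveRoot (H.zeta : O) h := by
  refine IsPrimitiveRoot.of_map_of_injective (f := ι) ?_ H.ι_injective
  rw [H.zeta_spec]
  exact Complex.isPrimitiveRoot_exp h (NeZero.ne h)

theorem e_pos : 0 < H.e := by
  rcases Nat.eq_zero_or_pos H.e with h0 | h0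
  · exact absurd (by simp [← H.e_mul_period, h0]) (NeZero.ne h)
  · exact h0

theorem twist {Γ : Subgroup SL(2, ℤ)} {s : SL(2, ℤ) ⧸ Γ → LaurentSeries O}
    (hs : s ∈ fRing Γ h ι) (q : SL(2, ℤ) ⧸ Γ) (n : ℤ) :
    (s ((ModularGroup.T⁻¹ : SL(2, ℤ)) • q)).coeff n
      = ((H.zeta ^ n : Oˣ) : O) * (s q).coeff n :=
  fRing_twist H.ι_injective H.zeta_spec hs q n

theorem twist_natCast {Γ : Subgroup SL(2, ℤ)} {s : SL(2, ℤ) ⧸ Γ → LaurentSeries O}
    (hs : s ∈ fRing Γ h ι) (q : SL(2, ℤ) ⧸ Γ) (n : ℤ) (i : ℕ) :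
    (s ((ModularGroup.T ^ (-(i : ℤ)) : SL(2, ℤ)) • q)).coeff n
      = ((H.zeta ^ n : Oˣ) : O) ^ i * (s q).coeff n := by
  induction i with
  | zero => simp
  | succ i ih =>
    rw [show ((ModularGroup.T ^ (-((i + 1 : ℕ) : ℤ)) : SL(2, ℤ)))
        = ModularGroup.T⁻¹ * ModularGroup.T ^ (-(i : ℤ)) by
      rw [← zpow_neg_one, ← zpow_add]; congr 1; push_cast; ring]
    rw [mul_smul, H.twist hs, ih, pow_succ']
    ring

include H in
theorem coeff_eq_zero_of_mem_orbit {Γ : Subgroup SL(2, ℤ)}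
    {s : SL(2, ℤ) ⧸ Γ → LaurentSeries O} (hs : s ∈ fRing Γ h ι) {q : SL(2, ℤ) ⧸ Γ}
    (hq : q ∈ cuspOrbit Γ) {n : ℤ} (hn : (s (one Γ)).coeff n = 0) : (s q).coeff n = 0 := by
  obtain ⟨i, rfl⟩ := hq
  rcases Int.eq_nat_or_neg i with ⟨m, rfl | rfl⟩
  · have := H.twist_natCast hs ((ModularGroup.T ^ (m : ℤ) : SL(2, ℤ)) • one Γ) n m
    rw [← mul_smul, ← zpow_add, neg_add_cancel, zpow_zero, one_smul, hn] at this
    exact (mul_eq_zero.mp this.symm).resolve_left (pow_ne_zero _ (Units.ne_zero _))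
  · rw [H.twist_natCast hs, hn, mul_zero]

theorem eval_uS_mem (P : O[X]) : (fun q => P.eval₂ cC (H.uS q)) ∈ fRing H.Γb h ι := by
  induction P using Polynomial.induction_on' with
  | add p q hp hq =>
    simp only [eval₂_add]
    exact add_mem hp hq
  | monomial i a =>
    simp only [eval₂_monomial]
    exact mul_mem (C_mem_fRing a) (pow_mem H.uS_mem i)

/-- An element with no negative coefficients is constant. -/
theorem eq_C_of_bdd {t : SL(2, ℤ) ⧸ H.Γb → LaurentSeries O} (ht : t ∈ fRing H.Γb h ι)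
    (hb : ∀ q, PoleBound 0 (t q)) : t = fun _ => cC ((t (one H.Γb)).coeff 0) := by
  classical
  set a := (t (one H.Γb)).coeff 0
  set s : SL(2, ℤ) ⧸ H.Γb → LaurentSeries O := t - fun _ => cC a with hsdef
  have hs : s ∈ fRing H.Γb h ι := sub_mem ht (C_mem_fRing a)
  suffices s = 0 from sub_eq_zero.mp this
  have hsb : ∀ q, PoleBound 0 (s q) := fun q n hn => by
    rw [hsdef, Pi.sub_apply, HahnSeries.coeff_sub, hb q n hn, poleBound_C a n hn, sub_zero]
  obtain ⟨P, hP⟩ := fRing_symm_j H.ι_injective hs 0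
  rw [coeff_zero_eq_eval_zero, eval_prod] at hP
  simp only [eval_sub, eval_X, eval_C, zero_sub] at hP
  obtain ⟨hpb, hp0⟩ := PoleBound.prod_coeff_zero Finset.univ (x := fun q => -s q) fun q _ n hn => by
    rw [HahnSeries.coeff_neg, hsb q n hn, neg_zero]
  have hpole : PoleBound h (jW O h) := fun n hn => by
    have := Igusa.coeff_jW_pow_of_lt (R := O) h 1 (n := n) (by push_cast; linarith)
    rwa [pow_one] at this
  have hlead : (jW O h).coeff (-(h : ℤ)) = 1 := by
    have := Igusa.coeff_jW_pow_self (R := O) h 1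
    rwa [pow_one, Nat.cast_one, mul_one] at this
  have hP0 : P = 0 := eval_coeff_lead (NeZero.pos h) hpole hlead fun n hn => by
    rw [← hP]
    rcases lt_or_eq_of_le hn with hn | rfl
    · exact hpb n (by simpa using hn)
    · rw [hp0]
      refine Finset.prod_eq_zero (Finset.mem_univ (one H.Γb)) ?_
      rw [HahnSeries.coeff_neg, hsdef, Pi.sub_apply, HahnSeries.coeff_sub, HahnSeries.C_apply,
        HahnSeries.coeff_single_same]
      simp [a]
  rw [hP0, eval₂_zero, Finset.prod_eq_zero_iff] at hP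
  obtain ⟨q, -, hq⟩ := hP
  exact fRing_inj H.ι_injective hs q (neg_eq_zero.mp hq)

/-- A function bounded outside the orbit of infinity is a polynomial in `u`. -/
theorem exists_poly_of_bdd {g : SL(2, ℤ) ⧸ H.Γb → LaurentSeries O} (hgm : g ∈ fRing H.Γb h ι)
    (hout : ∀ q ∉ cuspOrbit H.Γb, PoleBound 0 (g q)) :
    ∃ P : O[X], g (one H.Γb) = P.eval₂ cC H.u := by
  classical
  suffices key : ∀ (N : ℕ) (g : SL(2, ℤ) ⧸ H.Γb → LaurentSeries O), g ∈ fRing H.Γb h ι →
      (∀ q ∉ cuspOrbit H.Γb, PoleBound 0 (g q)) → PoleBound N (g (one H.Γb)) →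
      ∃ P : O[X], g (one H.Γb) = P.eval₂ cC H.u by
    exact key (g (one H.Γb)).order.natAbs g hgm hout
      fun n hn => HahnSeries.coeff_eq_zero_of_lt_order (by omega)
  intro N
  induction N with
  | zero =>
    intro g hgm hout hN
    have hall : ∀ q, PoleBound 0 (g q) := fun q => by
      by_cases hq : q ∈ cuspOrbit H.Γb
      · exact fun n hn => H.coeff_eq_zero_of_mem_orbit hgm hq (hN n hn)
      · exact hout q hq
    refine ⟨C ((g (one H.Γb)).coeff 0), ?_⟩
    rw [eval₂_C]
    exact congrFun (H.eq_C_of_bdd hgm hall) _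
  | succ N ih =>
    intro g hgm hout hN
    set a := (g (one H.Γb)).coeff (-((N + 1 : ℕ) : ℤ)) with ha
    rcases eq_or_ne a 0 with ha0 | ha0
    · refine ih g hgm hout fun n hn => ?_
      rcases lt_or_eq_of_le (show n ≤ -((N + 1 : ℕ) : ℤ) by push_cast; omega) with hlt | rfl
      · exact hN n hlt
      · exact ha0
    have hfix : (ModularGroup.T ^ (-(H.period : ℤ)) : SL(2, ℤ)) • one H.Γb = one H.Γb := by
      show (QuotientGroup.mk ((ModularGroup.T ^ (-(H.period : ℤ)) : SL(2, ℤ)) * 1) :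
        SL(2, ℤ) ⧸ H.Γb) = QuotientGroup.mk 1
      refine QuotientGroup.eq.mpr ?_
      simp only [zpow_neg, mul_one, inv_inv]
      exact H.period_mem
    have h1 := H.twist_natCast hgm (one H.Γb) (-((N + 1 : ℕ) : ℤ)) H.period
    rw [hfix, ← ha] at h1
    have h2 : ((H.zeta : O) ^ (((N + 1 : ℕ)) * H.period)) = 1 := by
      have h3 : (((H.zeta ^ (-((N + 1 : ℕ) : ℤ)) : Oˣ) : O)) ^ H.period = 1 :=
        mul_right_cancel₀ ha0 (h1.symm.trans (one_mul a).symm)
      rw [← Units.val_pow_eq_pow_val, zpow_neg, inv_pow, Units.val_eq_one, inv_eq_one,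
        zpow_natCast, ← pow_mul] at h3
      rw [← Units.val_pow_eq_pow_val, h3, Units.val_one]
    obtain ⟨r, hr⟩ : H.e ∣ N + 1 := by
      have h3 := H.zeta_prim.dvd_of_pow_eq_one _ h2
      obtain ⟨c, hc⟩ := h3
      refine ⟨c, ?_⟩
      have hp : 0 < H.period := by
        rcases Nat.eq_zero_or_pos H.period with h0 | h0
        · exact absurd (by simp [← H.e_mul_period, h0]) (NeZero.ne h)
        · exact h0
      refine Nat.eq_of_mul_eq_mul_right hp (hc.trans ?_)
      calc h * c = H.e * H.period * c := congrArg (· * c) H.e_mul_period.symm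
        _ = H.e * c * H.period := by ring
    obtain ⟨hpb, hpl⟩ := H.u_pole.pow_coeff r
    rw [show r * H.e = N + 1 by rw [hr, mul_comm]] at hpb hpl
    set c : O := a * ((H.u_lead.unit⁻¹ : Oˣ) : O) ^ r with hc
    set g' : SL(2, ℤ) ⧸ H.Γb → LaurentSeries O := g - (fun _ => cC c) * H.uS ^ r with hg'
    have hg'm : g' ∈ fRing H.Γb h ι := sub_mem hgm (mul_mem (C_mem_fRing c) (pow_mem H.uS_mem r))
    have hout' : ∀ q ∉ cuspOrbit H.Γb, PoleBound 0 (g' q) := fun q hq n hn => by
      rw [hg', Pi.sub_apply, Pi.mul_apply, Pi.pow_apply, HahnSeries.coeff_sub, hout q hq n hn,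
        coeff_C_mul, ((H.u_bdd q hq).pow_coeff r).1 n (by simpa using hn), mul_zero, sub_zero]
    have hN' : PoleBound N (g' (one H.Γb)) := fun n hn => by
      rw [hg', Pi.sub_apply, Pi.mul_apply, Pi.pow_apply, HahnSeries.coeff_sub, coeff_C_mul]
      rcases lt_or_eq_of_le (show n ≤ -((N + 1 : ℕ) : ℤ) by push_cast; omega) with hlt | rfl
      · rw [hN n hlt, hpb n hlt, mul_zero, sub_zero]
      · rw [← ha, hpl, hc, mul_assoc, ← mul_pow, IsUnit.val_inv_mul, one_pow, mul_one, sub_self]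
    obtain ⟨P, hP⟩ := ih g' hg'm hout' hN'
    refine ⟨P + C c * X ^ r, ?_⟩
    rw [eval₂_add, eval₂_mul, eval₂_C, eval₂_X_pow, ← hP, hg', Pi.sub_apply, Pi.mul_apply,
      Pi.pow_apply, show H.u = H.uS (one H.Γb) from rfl, sub_add_cancel]

end HauptU

namespace Haupt

variable (H : Haupt O h ι)

attribute [local instance] HauptU.finite

/-- **Polynomial representation** of functions on the base group. -/
theorem exists_poly {t : SL(2, ℤ) ⧸ H.Γb → LaurentSeries O} (ht : t ∈ fRing H.Γb h ι) :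
    ∃ (m : ℕ) (P : O[X]), t (one H.Γb) * H.Q.eval₂ cC H.u ^ m = P.eval₂ cC H.u := by
  classical
  set m := ∑ q, (t q).order.natAbs with hm
  set g : SL(2, ℤ) ⧸ H.Γb → LaurentSeries O := t * (fun q => H.Q.eval₂ cC (H.uS q)) ^ m with hg
  have hgm : g ∈ fRing H.Γb h ι := mul_mem ht (pow_mem (H.eval_uS_mem H.Q) m)
  have hout : ∀ q ∉ cuspOrbit H.Γb, PoleBound 0 (g q) := by
    intro q hq n hn
    set x := H.Q.eval₂ cC (H.uS q) with hx
    have hx0 : ∀ i : ℤ, i < 1 → x.coeff i = 0 := fun i hi => by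
      rcases lt_or_eq_of_le (show i ≤ 0 by omega) with h0 | rfl
      · exact (H.u_bdd q hq).eval H.Q i (by simpa using h0)
      · exact H.Q_pos q hq
    have hxm : ∀ (m : ℕ) (i : ℤ), i < m → (x ^ m).coeff i = 0 := by
      intro m
      induction m with
      | zero => intro i hi; rw [pow_zero, HahnSeries.coeff_one, if_neg (by omega)]
      | succ m ih =>
        intro i hi
        rw [pow_succ, HahnSeries.coeff_mul]
        refine Finset.sum_eq_zero fun p hp => ?_
        obtain ⟨h1, h2, h3⟩ := Finset.mem_antidiagonal.mp hp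
        have : ¬ p.1 < m := fun hc => h1 (ih _ hc)
        have : ¬ p.2 < 1 := fun hc => h2 (hx0 _ hc)
        omega
    rw [hg, Pi.mul_apply, Pi.pow_apply, HahnSeries.coeff_mul]
    refine Finset.sum_eq_zero fun p hp => ?_
    obtain ⟨h1, h2, h3⟩ := Finset.mem_antidiagonal.mp hp
    have hle : (t q).order.natAbs ≤ m :=
      Finset.single_le_sum (f := fun q => (t q).order.natAbs) (fun _ _ => Nat.zero_le _)
        (Finset.mem_univ q)
    have : ¬ p.1 < (t q).order := fun hc => h1 (HahnSeries.coeff_eq_zero_of_lt_order hc)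
    have : ¬ p.2 < m := fun hc => h2 (hxm m _ hc)
    omega
  obtain ⟨P, hP⟩ := H.exists_poly_of_bdd hgm hout
  exact ⟨m, P, hP⟩

end Haupt

end Fermat.Agent.Connected
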