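import Fermat.Agent.Connected.HauptBase
import Fermat.Agent.LevelOne.JBijective

/-!
# The base data attached to a separating family of modular functions

For `Γ` below the base group, `SepData` is a finite family of functions separating the cosets at
every point and the cosets over the base modulo `pi`.  It yields a `Base` (`SepData.base`), the
separation hypothesis being `exists_sep`.
-/

set_option autoImplicit false

noncomputable section

open Polynomial ModularCurve UpperHalfPlane Matrix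
open scoped MatrixGroups Manifold

namespace Fermat.Agent.Connected

local notation "cC" => HahnSeries.C (Γ := ℤ)

open Fermat.Agent.Igusa (HasExp QSR mem_QSR jW)

section Lemmas

theorem exists_injective_comb {L : Type*} [CommRing L] [IsDomain L] {α : Type*} [Finite α]
    {n : ℕ} (z : Fin n → α → L) (hz : ∀ l l', l ≠ l' → ∃ a, z a l ≠ z a l') (x : ℕ → L)
    (hx : Function.Injective x) :
    ∃ m ≤ Nat.card α * Nat.card α * n,
      Function.Injective fun l => ∑ a : Fin n, x m ^ (a : ℕ) * z a l := by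
  classical
  have := Fintype.ofFinite α
  set S := (Finset.univ : Finset (α × α)).filter fun p => p.1 ≠ p.2
  set D : α × α → L[X] := fun p =>
    ∑ a : Fin n, monomial (a : ℕ) (z a p.1 - z a p.2) with hD
  have hD0 : ∀ p ∈ S, D p ≠ 0 := by
    intro p hp h0
    obtain ⟨a, ha⟩ := hz _ _ (Finset.mem_filter.mp hp).2
    have := congrArg (fun q : L[X] => q.coeff (a : ℕ)) h0
    simp only [hD, finsetSum_coeff, coeff_monomial, coeff_zero] at this
    rw [Finset.sum_eq_single a (fun b _ hb => if_neg fun h => hb (Fin.ext h))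
      (fun h => absurd (Finset.mem_univ a) h), if_pos rfl] at this
    exact ha (sub_eq_zero.mp this)
  set P := ∏ p ∈ S, D p
  have hP : P ≠ 0 := Finset.prod_ne_zero_iff.mpr hD0
  have hdeg : P.natDegree ≤ Nat.card α * Nat.card α * n := by
    refine (natDegree_prod_le _ _).trans ?_
    refine (Finset.sum_le_card_nsmul _ _ n fun p _ => ?_).trans ?_
    · refine natDegree_sum_le_of_forall_le _ _ fun a _ => (natDegree_monomial_le _).trans a.isLt.le
    · rw [smul_eq_mul]
      refine Nat.mul_le_mul_right _ ((Finset.card_filter_le _ _).trans ?_)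
      rw [Finset.card_univ, Fintype.card_prod, Nat.card_eq_fintype_card]
  by_contra hcon
  push Not at hcon
  refine hP (eq_zero_of_natDegree_lt_card_of_eval_eq_zero P
    (f := fun m : Fin (Nat.card α * Nat.card α * n + 1) => x m) (fun a b h => Fin.ext (hx h))
    (fun m => ?_) (by rw [Fintype.card_fin]; omega))
  obtain ⟨l, l', heq, hne⟩ := Function.not_injective_iff.mp (hcon m (by omega))
  rw [eval_prod]
  refine Finset.prod_eq_zero (i := (l, l')) (Finset.mem_filter.mpr ⟨Finset.mem_univ _, hne⟩) ?_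
  simp only [hD, eval_finsetSum, eval_monomial, sub_mul, Finset.sum_sub_distrib]
  rw [sub_eq_zero]
  exact (Finset.sum_congr rfl fun a _ => mul_comm _ _).trans
    (heq.trans (Finset.sum_congr rfl fun a _ => mul_comm _ _))

/-- The power tuple of an element. -/
def powTuple {L : Type*} [CommRing L] {α : Type*} [Fintype α] (z : α → L) : α → α → L :=
  fun j => z ^ (Fintype.equivFin α j : ℕ)

theorem det_powTuple_ne_zero {L : Type*} [CommRing L] [IsDomain L] {α : Type*} [Fintype α]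
    [DecidableEq α] {z : α → L} (hz : Function.Injective z) :
    (Base.mat (powTuple z)).det ≠ 0 := by
  have : Base.mat (powTuple z) = (vandermonde (z ∘ (Fintype.equivFin α).symm)).submatrix
      (Fintype.equivFin α) (Fintype.equivFin α) := by
    ext l j
    simp [Base.mat, powTuple, vandermonde]
  rw [this, det_submatrix_equiv_self, det_vandermonde_ne_zero_iff]
  exact hz.comp (Equiv.injective _)

end Lemmas

variable {O k : Type*} [CommRing O] [IsDomain O] [Field k] {h : ℕ} [NeZero h] {ι : O →+* ℂ}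

omit [IsDomain O] [NeZero h] in
theorem qsr_fun_unique {f g : ℍ → ℂ} {s : LaurentSeries O} (hf : (f, s) ∈ QSR h ι)
    (hg : (g, s) ∈ QSR h ι) : f = g :=
  funext fun τ => ((mem_QSR.mp hf).2 τ).unique ((mem_QSR.mp hg).2 τ)

omit [IsDomain O] in
theorem eval_jW_mem (P : O[X]) :
    ((fun τ => (P.map ι).eval (Igusa.jFun τ)), P.eval₂ cC (jW O h)) ∈ QSR h ι := by
  induction P using Polynomial.induction_on' with
  | add p q hp hq =>
    simp only [Polynomial.map_add, eval_add, eval₂_add]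
    exact add_mem hp hq
  | monomial i a =>
    simp only [Polynomial.map_monomial, eval_monomial, eval₂_monomial]
    have hC : ((fun _ => ι a : ℍ → ℂ), cC a) ∈ QSR h ι := by
      rw [mem_QSR, HahnSeries.C_apply, coeffMap_single]
      exact Igusa.hasExp_const h _
    have hj : (Igusa.jFun, jW O h) ∈ QSR h ι := by
      rw [mem_QSR, Igusa.coeffMap_jW]; exact Igusa.hasExp_jW h
    exact mul_mem hC (pow_mem hj i)

/-- Reduction data: residue map and separating functions. -/
structure SepData (O k : Type*) [CommRing O] [IsDomain O] [Field k] (h : ℕ) [NeZero h]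
    (ι : O →+* ℂ) (H : Haupt O h ι) (Γ : Subgroup SL(2, ℤ)) where
  le : Γ ≤ H.Γb
  res : O →+* k
  res_surjective : Function.Surjective res
  pi : O
  pi_ne_zero : pi ≠ 0
  res_eq_zero : ∀ a, res a = 0 ↔ pi ∣ a
  sep_pi : ∀ a : O, (∀ n : ℕ, pi ^ n ∣ a) → a = 0
  pi_pow : ∀ s : O, s ≠ 0 → ∃ a : ℕ, s ∣ pi ^ a
  n : ℕ
  f : Fin n → ℍ → ℂ
  y : Fin n → SL(2, ℤ) ⧸ Γ → LaurentSeries O
  f_inv : ∀ a, Inv Γ (f a)
  f_exp : ∀ a q, (tr (f a) q, y a q) ∈ QSR h ι
  sep_tau : ∀ τ, ∀ q q' : SL(2, ℤ) ⧸ Γ, q.out ∈ H.Γb → q'.out ∈ H.Γb → q ≠ q' →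
    ∃ a, tr (f a) q τ ≠ tr (f a) q' τ
  sep_series : ∀ q q' : SL(2, ℤ) ⧸ Γ, q ≠ q' → ∃ a, y a q ≠ y a q'
  sep_red : ∀ q q' : SL(2, ℤ) ⧸ Γ, q.out ∈ H.Γb → q'.out ∈ H.Γb → q ≠ q' →
    ∃ a, coeffMap res (y a q) ≠ coeffMap res (y a q')

namespace SepData

variable {H : Haupt O h ι} {Γ : Subgroup SL(2, ℤ)} [Fintype (SL(2, ℤ) ⧸ Γ)]
  (D : SepData O k h ι H Γ)

attribute [local instance] HauptU.finite

/-- Cosets inside the base group. -/
abbrev Sub (_D : SepData O k h ι H Γ) : Type := {q : SL(2, ℤ) ⧸ Γ // q.out ∈ H.Γb}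

instance : Fintype D.Sub := by
  exact Fintype.ofFinite _

include D in
omit [Fintype (SL(2, ℤ) ⧸ Γ)] in
theorem out_mk_mem_iff (g : SL(2, ℤ)) :
    (QuotientGroup.mk g : SL(2, ℤ) ⧸ Γ).out ∈ H.Γb ↔ g ∈ H.Γb := by
  obtain ⟨γ, hγ⟩ := QuotientGroup.mk_out_eq_mul Γ g
  rw [hγ]
  exact Subgroup.mul_mem_cancel_right _ (D.le γ.2)

/-- The base coset `1`. -/
def l₀ : D.Sub := ⟨one Γ, (D.out_mk_mem_iff 1).mpr (one_mem _)⟩

/-- Left translation by an element of the base group permutes the cosets inside it. -/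
def subPerm {γ : SL(2, ℤ)} (hγ : γ ∈ H.Γb) : Equiv.Perm D.Sub :=
  (MulAction.toPerm γ).subtypeEquiv fun q => by
    obtain ⟨g, rfl⟩ := QuotientGroup.mk_surjective q
    show (QuotientGroup.mk g : SL(2, ℤ) ⧸ Γ).out ∈ H.Γb ↔
      (QuotientGroup.mk (γ * g) : SL(2, ℤ) ⧸ Γ).out ∈ H.Γb
    rw [D.out_mk_mem_iff, D.out_mk_mem_iff]
    exact (Subgroup.mul_mem_cancel_left _ hγ).symm

/-- The functions on the base group, at infinity. -/
def bfun (_D : SepData O k h ι H Γ) : Subring (LaurentSeries O) :=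
  (fRing H.Γb h ι).map (Pi.evalRingHom _ (one H.Γb))

omit [Fintype (SL(2, ℤ) ⧸ Γ)] in
theorem mem_bfun_C (a : O) : cC a ∈ D.bfun := ⟨_, C_mem_fRing a, rfl⟩

theorem eval_jW_mem_fRing (P : O[X]) :
    (fun _ => P.eval₂ cC (jW O h)) ∈ fRing H.Γb h ι := by
  induction P using Polynomial.induction_on' with
  | add p q hp hq => simp only [eval₂_add]; exact add_mem hp hq
  | monomial i a =>
    simp only [eval₂_monomial]
    exact mul_mem (C_mem_fRing a) (pow_mem jW_mem_fRing i)

omit [Fintype (SL(2, ℤ) ⧸ Γ)] in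
theorem mem_bfun_eval_jW (P : O[X]) : P.eval₂ cC (jW O h) ∈ D.bfun :=
  Subring.mem_map.mpr ⟨_, eval_jW_mem_fRing P, rfl⟩

include D in
theorem symm_mem {s : SL(2, ℤ) ⧸ Γ → LaurentSeries O} (hs : s ∈ fRing Γ h ι) (n : ℕ) :
    (∏ l : D.Sub, (X - C (s l.1))).coeff n ∈ D.bfun := by
  obtain ⟨f, hf, hfs⟩ := hs
  set F : ℍ → ℂ := (∏ l : D.Sub, (X - C (tr f l.1))).coeff n with hF
  have hinv : Inv H.Γb F := fun γ hγ τ => by
    have h1 := compHom_symm hf (fun l : D.Sub => l.1) γ n
    have h2 : (∏ l : D.Sub, (X - C (tr f (γ⁻¹ • l.1))))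
        = ∏ l : D.Sub, (X - C (tr f l.1)) :=
      Equiv.prod_comp (D.subPerm (inv_mem hγ)) fun l => X - C (tr f l.1)
    rw [h2, ← hF] at h1
    exact congrFun h1 τ
  refine ⟨fun qb => (∏ l : D.Sub, (X - C (s (qb.out • l.1)))).coeff n, ⟨F, hinv, fun qb => ?_⟩, ?_⟩
  · have h1 := compHom_symm hf (fun l : D.Sub => l.1) qb.out⁻¹ n
    rw [inv_inv] at h1
    rw [show tr F qb = compHom qb.out⁻¹ F from rfl, hF, h1]
    exact exists_symm hf hfs (fun l : D.Sub => qb.out • l.1) n
  · have hout : (one H.Γb).out ∈ H.Γb := by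
      obtain ⟨γ, hγ⟩ := QuotientGroup.mk_out_eq_mul H.Γb 1
      rw [hγ, one_mul]
      exact γ.2
    show (∏ l : D.Sub, (X - C (s ((one H.Γb).out • l.1)))).coeff n = _
    rw [show (∏ l : D.Sub, (X - C (s ((one H.Γb).out • l.1))))
        = ∏ l : D.Sub, (X - C (s l.1)) from
      Equiv.prod_comp (D.subPerm hout) fun l => X - C (s l.1)]

theorem trace_mem {s : SL(2, ℤ) ⧸ Γ → LaurentSeries O} (hs : s ∈ fRing Γ h ι) :
    ∑ l : D.Sub, s l.1 ∈ D.bfun := by
  have hpos : 0 < (Finset.univ : Finset D.Sub).card :=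
    Finset.card_pos.mpr ⟨D.l₀, Finset.mem_univ _⟩
  have := neg_mem (D.symm_mem hs ((Finset.univ : Finset D.Sub).card - 1))
  rwa [prod_X_sub_C_coeff_card_pred _ _ hpos, neg_neg] at this

/-- The projection to the cosets inside the base group. -/
def proj : (SL(2, ℤ) ⧸ Γ → LaurentSeries O) →+* (D.Sub → LaurentSeries O) where
  toFun y l := y l.1
  map_one' := rfl
  map_mul' _ _ := rfl
  map_zero' := rfl
  map_add' _ _ := rfl

/-- The subring on the cosets inside the base group. -/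
def subRing : Subring (D.Sub → LaurentSeries O) := (fRing Γ h ι).map D.proj

open Classical in
theorem det_sq_mem {b : D.Sub → D.Sub → LaurentSeries O} (hb : ∀ j, b j ∈ D.subRing) :
    (Base.mat b).det ^ 2 ∈ D.bfun := by
  rw [pow_two]
  nth_rewrite 1 [← Matrix.det_transpose]
  rw [← Matrix.det_mul]
  refine det_mem _ fun i j => ?_
  obtain ⟨s, hs, hsb⟩ := hb i
  obtain ⟨t, ht, htb⟩ := hb j
  have := D.trace_mem (mul_mem hs ht)
  convert this using 1
  simp [Matrix.mul_apply, Base.mat, ← hsb, ← htb, proj]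

/-- The generic combination with parameter `m`. -/
def comb (m : ℕ) : SL(2, ℤ) ⧸ Γ → LaurentSeries O :=
  fun q => ∑ a : Fin D.n, (m : LaurentSeries O) ^ (a : ℕ) * D.y a q

/-- Its function. -/
def combFun (m : ℕ) : ℍ → ℂ := fun τ => ∑ a : Fin D.n, (m : ℂ) ^ (a : ℕ) * D.f a τ

omit [Fintype (SL(2, ℤ) ⧸ Γ)] in
theorem comb_exp (m : ℕ) (q : SL(2, ℤ) ⧸ Γ) : (tr (D.combFun m) q, D.comb m q) ∈ QSR h ι := by
  have : (tr (D.combFun m) q, D.comb m q)
      = ∑ a : Fin D.n, (m : (ℍ → ℂ) × LaurentSeries O) ^ (a : ℕ) * (tr (D.f a) q, D.y a q) := by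
    refine Prod.ext ?_ ?_
    · funext τ
      simp [combFun, tr, Prod.fst_sum]
    · simp [comb, Prod.snd_sum]
  rw [this]
  exact sum_mem fun a _ => mul_mem (pow_mem (natCast_mem _ m) _) (D.f_exp a q)

omit [Fintype (SL(2, ℤ) ⧸ Γ)] in
theorem y_mem (a : Fin D.n) : D.y a ∈ fRing Γ h ι := ⟨D.f a, D.f_inv a, D.f_exp a⟩

omit [Fintype (SL(2, ℤ) ⧸ Γ)] in
theorem comb_mem (m : ℕ) : D.comb m ∈ fRing Γ h ι := by
  refine ⟨D.combFun m, fun γ hγ τ => ?_, D.comb_exp m⟩
  simp only [combFun]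
  exact Finset.sum_congr rfl fun a _ => by rw [D.f_inv a γ hγ τ]

open Classical in
/-- The discriminant of the powers of the generic combination. -/
def disc (m : ℕ) : LaurentSeries O :=
  (Base.mat (powTuple fun l : D.Sub => D.comb m l.1)).det ^ 2

theorem powTuple_mem (m : ℕ) (j : D.Sub) :
    powTuple (fun l : D.Sub => D.comb m l.1) j ∈ D.subRing := by
  refine pow_mem ?_ _
  exact ⟨_, D.comb_mem m, rfl⟩

open Classical in
theorem disc_exp (m : ℕ) :
    ((fun τ => (Base.mat (powTuple fun l : D.Sub => tr (D.combFun m) l.1 τ)).det ^ 2),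
      D.disc m) ∈ QSR h ι := by
  set P : Matrix D.Sub D.Sub (QSR h ι) := Base.mat (powTuple fun l : D.Sub =>
    (⟨_, D.comb_exp m l.1⟩ : QSR h ι)) with hP
  have h1 : ((fun τ => (Base.mat (powTuple fun l : D.Sub => tr (D.combFun m) l.1 τ)).det ^ 2),
      D.disc m) = ((P.det ^ 2 : QSR h ι) : (ℍ → ℂ) × LaurentSeries O) := by
    refine Prod.ext ?_ ?_
    · funext τ
      show _ = ((((Pi.evalRingHom (fun _ : ℍ => ℂ) τ).comp
        ((RingHom.fst (ℍ → ℂ) (LaurentSeries O)).comp (QSR h ι).subtype))) (P.det ^ 2) : ℂ)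
      rw [map_pow, RingHom.map_det]
      congr 2
    · show _ = ((RingHom.snd (ℍ → ℂ) (LaurentSeries O)).comp (QSR h ι).subtype) (P.det ^ 2)
      rw [map_pow, RingHom.map_det]
      rfl
  rw [h1]
  exact (P.det ^ 2).2

/-- **The separation hypothesis of `Base`**. -/
theorem exists_sep : ∃ (B : ℕ) (P : Fin B → O[X]) (a m : ℕ),
    ∑ s : Fin B, (P s).eval₂ cC H.u * D.disc (s : ℕ)
      = cC D.pi ^ a * H.Q.eval₂ cC H.u ^ m := by
  classical
  set B := Nat.card D.Sub * Nat.card D.Sub * D.n + 1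
  choose t htm ht1 using fun x : Fin B => D.det_sq_mem (D.powTuple_mem (x : ℕ))
  choose F hF hFt using fun x : Fin B => htm x
  have hFτ : ∀ (x : Fin B) (τ : ℍ),
      F x τ = (Base.mat (powTuple fun l : D.Sub => tr (D.combFun (x : ℕ)) l.1 τ)).det ^ 2 := by
    intro x τ
    have h1 : (tr (F x) (one H.Γb), D.disc (x : ℕ)) ∈ QSR h ι := by
      have := hFt x (one H.Γb)
      rwa [show t x (one H.Γb) = D.disc (x : ℕ) from ht1 x] at this
    have h2 := congrFun (qsr_fun_unique h1 (D.disc_exp (x : ℕ))) τ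
    rwa [tr_mk (hF x), inv_one, one_smul] at h2
  have hne : ∀ τ : ℍ, ∃ x : Fin B, F x τ ≠ 0 := by
    intro τ
    obtain ⟨m, hm, hinj⟩ := exists_injective_comb
      (fun (a : Fin D.n) (l : D.Sub) => tr (D.f a) l.1 τ)
      (fun l l' hll => D.sep_tau τ l.1 l'.1 l.2 l'.2 fun he => hll (Subtype.ext he))
      (fun m : ℕ => (m : ℂ)) Nat.cast_injective
    refine ⟨⟨m, by omega⟩, ?_⟩
    rw [hFτ]
    refine pow_ne_zero 2 (det_powTuple_ne_zero ?_)
    have : (fun l : D.Sub => tr (D.combFun m) l.1 τ)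
        = fun l : D.Sub => ∑ a : Fin D.n, (m : ℂ) ^ (a : ℕ) * tr (D.f a) l.1 τ := rfl
    simp only [this]
    exact hinj
  let I : Ideal O[X] :=
    { carrier := {c | ∃ β : Fin B → LaurentSeries O, (∀ x, β x ∈ D.bfun) ∧
        c.eval₂ cC (jW O h) = ∑ x, β x * D.disc (x : ℕ)}
      add_mem' := by
        rintro c c' ⟨β, hβ, h1⟩ ⟨β', hβ', h2⟩
        refine ⟨β + β', fun x => add_mem (hβ x) (hβ' x), ?_⟩
        simp [eval₂_add, h1, h2, add_mul, Finset.sum_add_distrib]
      zero_mem' := ⟨0, fun _ => zero_mem _, by simp⟩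
      smul_mem' := by
        rintro r c ⟨β, hβ, h1⟩
        refine ⟨fun x => r.eval₂ cC (jW O h) * β x,
          fun x => mul_mem (D.mem_bfun_eval_jW r) (hβ x), ?_⟩
        simp [smul_eq_mul, eval₂_mul, h1, Finset.mul_sum, mul_assoc] }
  have hI : ∀ τ : ℍ, ∃ c ∈ I, (c.map ι).eval (Igusa.jFun τ) ≠ 0 := by
    intro τ
    set Pτ : SL(2, ℤ) ⧸ H.Γb → ℂ[X] := fun qb =>
      ∑ x : Fin B, monomial (x : ℕ) (tr (F x) qb τ) with hPτ
    have hPτ0 : ∏ qb, Pτ qb ≠ 0 := by
      refine Finset.prod_ne_zero_iff.mpr fun qb _ h0 => ?_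
      obtain ⟨x, hx⟩ := hne (qb.out⁻¹ • τ)
      refine hx ?_
      have := congrArg (fun q : ℂ[X] => q.coeff (x : ℕ)) h0
      simp only [hPτ, finsetSum_coeff, coeff_monomial, coeff_zero] at this
      rwa [Finset.sum_eq_single x (fun b _ hb => if_neg fun h => hb (Fin.ext h))
        (fun h => absurd (Finset.mem_univ x) h), if_pos rfl] at this
    obtain ⟨c, hc⟩ : ∃ c : ℕ, (∏ qb, Pτ qb).eval (c : ℂ) ≠ 0 := by
      by_contra hcon
      push Not at hcon
      exact hPτ0 (eq_zero_of_infinite_isRoot _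
        ((Set.infinite_range_of_injective (Nat.cast_injective (R := ℂ))).mono
          (Set.range_subset_iff.mpr hcon)))
    set g : SL(2, ℤ) ⧸ H.Γb → LaurentSeries O :=
      ∑ x : Fin B, (fun _ => cC ((c : O) ^ (x : ℕ))) * t x
      with hg
    have hgm : g ∈ fRing H.Γb h ι :=
      sum_mem fun x _ => mul_mem (C_mem_fRing _) (htm x)
    set G : SL(2, ℤ) ⧸ H.Γb → ℍ → ℂ := fun qb τ =>
      ∑ x : Fin B, (c : ℂ) ^ (x : ℕ) * tr (F x) qb τ with hG
    have hGg : ∀ qb, (G qb, g qb) ∈ QSR h ι := by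
      intro qb
      have : (G qb, g qb) = ∑ x : Fin B,
          (c : (ℍ → ℂ) × LaurentSeries O) ^ (x : ℕ) * (tr (F x) qb, t x qb) := by
        refine Prod.ext ?_ ?_
        · funext σ
          simp [hG, Prod.fst_sum]
        · simp [hg, Prod.snd_sum, map_pow]
      rw [this]
      exact sum_mem fun x _ => mul_mem (pow_mem (natCast_mem _ c) _) (hFt x qb)
    set Φ : (LaurentSeries O)[X] := ∏ qb, (X - C (g qb)) with hΦ
    choose Pn hPn using fRing_symm_j H.ι_injective hgm
    refine ⟨Pn 0, ?_, ?_⟩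
    · refine ⟨fun x => -(Φ.divX.eval (g (one H.Γb))) * cC ((c : O) ^ (x : ℕ)), fun x => ?_, ?_⟩
      · refine mul_mem (neg_mem ?_) (D.mem_bfun_C _)
        rw [eval_eq_sum_range]
        have hg1m : g (one H.Γb) ∈ D.bfun := Subring.mem_map.mpr ⟨g, hgm, rfl⟩
        refine sum_mem fun i _ => mul_mem ?_ (pow_mem hg1m i)
        rw [coeff_divX, hΦ, hPn (i + 1)]
        exact D.mem_bfun_eval_jW _
      · have h0 : Φ.eval (g (one H.Γb)) = 0 := by
          rw [hΦ, eval_prod]
          exact Finset.prod_eq_zero (Finset.mem_univ (one H.Γb)) (by simp)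
        rw [← X_mul_divX_add Φ, eval_add, eval_mul, eval_X, eval_C] at h0
        rw [← hPn 0, ← hΦ, eq_neg_of_add_eq_zero_right h0]
        have hg1 : g (one H.Γb) = ∑ x : Fin B, cC ((c : O) ^ (x : ℕ)) * D.disc (x : ℕ) := by
          rw [hg, Finset.sum_apply]
          exact Finset.sum_congr rfl fun x _ => by
            rw [Pi.mul_apply, show t x (one H.Γb) = D.disc (x : ℕ) from ht1 x]
        rw [mul_comm, ← neg_mul]
        nth_rewrite 2 [hg1]
        rw [Finset.mul_sum]
        exact Finset.sum_congr rfl fun x _ => by ring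
    · have h1 : (∏ qb, (-G qb), (Pn 0).eval₂ cC (jW O h)) ∈ QSR h ι := by
        rw [← hPn 0, coeff_zero_eq_eval_zero, eval_prod]
        simp only [eval_sub, eval_X, eval_C, zero_sub]
        have : (∏ qb, (-G qb), ∏ qb, (-g qb))
            = ∏ qb, ((-G qb, -g qb) : (ℍ → ℂ) × LaurentSeries O) :=
          Prod.ext (Prod.fst_prod (f := fun qb => ((-G qb, -g qb) : (ℍ → ℂ) × LaurentSeries O))
            (s := Finset.univ)).symm (Prod.snd_prod
            (f := fun qb => ((-G qb, -g qb) : (ℍ → ℂ) × LaurentSeries O)) (s := Finset.univ)).symm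
        rw [this]
        exact prod_mem fun qb _ => neg_mem (hGg qb)
      have h2 := congrFun (qsr_fun_unique (eval_jW_mem (Pn 0)) h1) τ
      rw [h2, Finset.prod_apply, Finset.prod_ne_zero_iff]
      intro qb _
      rw [Pi.neg_apply, neg_ne_zero]
      rw [eval_prod, Finset.prod_ne_zero_iff] at hc
      have := hc qb (Finset.mem_univ qb)
      simp only [hPτ, eval_finsetSum, eval_monomial] at this
      simp only [hG]
      simpa [mul_comm] using this
  set K := FractionRing O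
  let J : Ideal K[X] :=
    { carrier := {p | ∃ s : O, s ≠ 0 ∧ ∃ c ∈ I,
        c.map (algebraMap O K) = C (algebraMap O K s) * p}
      add_mem' := by
        rintro p q ⟨s, hs, c, hc, h1⟩ ⟨s', hs', c', hc', h2⟩
        refine ⟨s * s', mul_ne_zero hs hs', C s' * c + C s * c',
          add_mem (Ideal.mul_mem_left _ _ hc) (Ideal.mul_mem_left _ _ hc'), ?_⟩
        simp only [Polynomial.map_add, Polynomial.map_mul, Polynomial.map_C, h1, h2, map_mul]
        ring
      zero_mem' := ⟨1, one_ne_zero, 0, zero_mem _, by simp⟩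
      smul_mem' := by
        rintro r p ⟨s, hs, c, hc, h1⟩
        obtain ⟨b, hb0, r', hr'⟩ : ∃ b : O, b ≠ 0 ∧
            ∃ r' : O[X], r'.map (algebraMap O K) = C (algebraMap O K b) * r := by
          obtain ⟨b, hb, hb'⟩ :=
            IsLocalization.integerNormalization_spec (nonZeroDivisors O) (S := K) r
          refine ⟨b, nonZeroDivisors.ne_zero hb,
            IsLocalization.integerNormalization (nonZeroDivisors O) r, ?_⟩
          rw [hb', Algebra.smul_def, Polynomial.algebraMap_apply]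
        refine ⟨b * s, mul_ne_zero hb0 hs, r' * c, Ideal.mul_mem_left _ _ hc, ?_⟩
        simp only [Polynomial.map_mul, hr', h1, map_mul, smul_eq_mul]
        ring }
  have hJ : J = ⊤ := by
    obtain ⟨g, hg⟩ := (IsPrincipalIdealRing.principal J).principal
    by_contra hJ
    set ιK : K →+* ℂ := IsFractionRing.lift H.ι_injective
    have hιK : ιK.comp (algebraMap O K) = ι :=
      RingHom.ext fun a => IsFractionRing.lift_algebraMap H.ι_injective a
    have hroot : ∃ x : ℂ, g.eval₂ ιK x = 0 := by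
      rcases eq_or_ne g 0 with rfl | hg0
      · exact ⟨0, eval₂_zero _ _⟩
      · refine IsAlgClosed.exists_eval₂_eq_zero ιK g fun hdeg => hJ ?_
        rw [hg]
        exact Ideal.span_singleton_eq_top.mpr (isUnit_iff_degree_eq_zero.mpr hdeg)
    obtain ⟨x, hx⟩ := hroot
    obtain ⟨τ, hτ⟩ := LevelOne.jFun_surjective x
    obtain ⟨c, hc, hc0⟩ := hI τ
    refine hc0 ?_
    have hmem : c.map (algebraMap O K) ∈ J := ⟨1, one_ne_zero, c, hc, by simp⟩
    rw [hg] at hmem
    obtain ⟨r, hr⟩ := Ideal.mem_span_singleton.mp hmem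
    have hj : Igusa.jFun τ = x := by
      rw [← hτ]
      simp [Igusa.jFun, LevelOne.jFun, div_eq_mul_inv]
    rw [eval_map, hj, ← hιK, ← eval₂_map, hr, eval₂_mul, hx, zero_mul]
  obtain ⟨s, hs, c, ⟨β, hβ, hβc⟩, hc⟩ : (1 : K[X]) ∈ J := hJ ▸ Submodule.mem_top
  rw [mul_one] at hc
  have hcs : c = C s :=
    Polynomial.map_injective _ (IsFractionRing.injective O K) (by rw [hc, Polynomial.map_C])
  rw [hcs, eval₂_C] at hβc
  obtain ⟨a, ha⟩ := D.pi_pow s hs
  obtain ⟨w, hw⟩ := ha
  have hB : ∀ x, ∃ (m : ℕ) (P : O[X]), β x * H.Q.eval₂ cC H.u ^ m = P.eval₂ cC H.u := by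
    intro x
    obtain ⟨b, hb, hb1⟩ := hβ x
    obtain ⟨m, P, hP⟩ := H.exists_poly hb
    exact ⟨m, P, by rw [← hb1]; exact hP⟩
  choose m P hP using hB
  refine ⟨B, fun x => C w * P x * H.Q ^ ((∑ y, m y) - m x), a, ∑ y, m y, ?_⟩
  rw [← map_pow, hw, map_mul, hβc, Finset.sum_mul, Finset.sum_mul]
  refine Finset.sum_congr rfl fun x _ => ?_
  have hle : m x ≤ ∑ y, m y :=
    Finset.single_le_sum (f := m) (fun _ _ => Nat.zero_le _) (Finset.mem_univ x)
  rw [eval₂_mul, eval₂_mul, eval₂_C, eval₂_pow, ← hP x]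
  conv_rhs => rw [← Nat.add_sub_cancel' hle, pow_add]
  ring

omit [Fintype (SL(2, ℤ) ⧸ Γ)] in
theorem dvd_of_coeffMap_eq_zero {x : LaurentSeries O} (hx : coeffMap D.res x = 0) :
    cC D.pi ∣ x := by
  rw [C_dvd_iff]
  intro i
  rw [← D.res_eq_zero, ← coeffMap_coeff D.res x i, hx, HahnSeries.coeff_zero]

omit [Fintype (SL(2, ℤ) ⧸ Γ)] in
theorem coeffMap_eq_zero_of_dvd {x : LaurentSeries O} (hx : cC D.pi ∣ x) :
    coeffMap D.res x = 0 := by
  obtain ⟨y, rfl⟩ := hx
  rw [map_mul, coeffMap_C, (D.res_eq_zero _).mpr dvd_rfl, map_zero, zero_mul]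

omit [Fintype (SL(2, ℤ) ⧸ Γ)] in
theorem trans_u : Function.Injective fun p : k[X] => p.eval₂ cC (coeffMap D.res H.u) := by
  intro p q hpq
  by_contra hne
  have hr : (p - q).eval₂ cC (coeffMap D.res H.u) = 0 := by
    rw [eval₂_sub]; exact sub_eq_zero.mpr hpq
  set r := p - q with hrdef
  have hrne : r.leadingCoeff ≠ 0 := leadingCoeff_ne_zero.mpr (sub_ne_zero.mpr hne)
  have hpole : PoleBound H.e (coeffMap D.res H.u) := fun n hn => by
    rw [coeffMap_coeff, HauptU.u, H.u_pole n hn, map_zero]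
  have hu : (coeffMap D.res H.u).coeff (-(H.e : ℤ)) ≠ 0 :=
    (H.u_lead.map D.res).ne_zero
  have h1 := congrArg (fun x => HahnSeries.coeff x (-((r.natDegree * H.e : ℕ) : ℤ))) hr
  rw [eval₂_eq_sum_range] at h1
  simp only [HahnSeries.coeff_sum, HahnSeries.coeff_zero] at h1
  rw [Finset.sum_eq_single r.natDegree (fun i hi hne' => ?_)
    (fun h' => absurd (Finset.mem_range.mpr (Nat.lt_succ_self _)) h'), coeff_C_mul,
    (hpole.pow_coeff _).2] at h1
  · exact mul_ne_zero hrne (pow_ne_zero _ hu) h1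
  · have hlt : i < r.natDegree :=
      lt_of_le_of_ne (Nat.lt_succ_iff.mp (Finset.mem_range.mp hi)) hne'
    rw [coeff_C_mul, (hpole.pow_coeff i).1, mul_zero]
    have : i * H.e < r.natDegree * H.e := Nat.mul_lt_mul_of_pos_right hlt H.e_pos
    omega

/-- Pulling back a function on the base group. -/
def pull (t : SL(2, ℤ) ⧸ H.Γb → LaurentSeries O) : SL(2, ℤ) ⧸ Γ → LaurentSeries O :=
  fun q => t (QuotientGroup.mk q.out)

include D in
omit [Fintype (SL(2, ℤ) ⧸ Γ)] in
/-- Functions on the base group pull back to functions on `Γ`. -/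
theorem pull_mem {t : SL(2, ℤ) ⧸ H.Γb → LaurentSeries O} (ht : t ∈ fRing H.Γb h ι) :
    pull t ∈ fRing Γ h ι := by
  obtain ⟨f, hf, hfs⟩ := ht
  refine ⟨f, fun γ hγ => hf γ (D.le hγ), fun q => ?_⟩
  have h1 : (tr f (QuotientGroup.mk q.out : SL(2, ℤ) ⧸ H.Γb)) = tr f q := by
    funext τ
    rw [tr_mk hf]
    rfl
  rw [← h1]
  exact hfs _

omit [Fintype (SL(2, ℤ) ⧸ Γ)] in
theorem pull_sub (t : SL(2, ℤ) ⧸ H.Γb → LaurentSeries O) (l : D.Sub) :
    pull t l.1 = t (one H.Γb) := by
  unfold pull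
  congr 1
  exact QuotientGroup.eq.mpr (by simpa using l.2)

/-- Divisibility by `pi` inside the base group spreads to all cusps. -/
theorem exists_eq_pi_mul {s : SL(2, ℤ) ⧸ Γ → LaurentSeries O} (hs : s ∈ fRing Γ h ι)
    (hdvd : ∀ l : D.Sub, cC D.pi ∣ s l.1) :
    ∃ S ∈ fRing Γ h ι, ∀ q, s q = cC D.pi * S q := by
  set Φ : (LaurentSeries O)[X] := ∏ l : D.Sub, (X - C (s l.1)) with hΦ
  set d := Fintype.card D.Sub with hd
  choose t ht hte using fun i => D.symm_mem hs i
  have hmonic : Φ.Monic := monic_prod_of_monic _ _ fun i _ => monic_X_sub_C _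
  have hdeg : Φ.natDegree = d := by
    rw [hΦ, natDegree_prod_of_monic _ _ fun i _ => monic_X_sub_C _]
    simp [hd]
  have hlow : ∀ i < d, ∀ qb, coeffMap D.res (t i qb) = 0 := by
    intro i hi qb
    have h0 : coeffMap D.res (Φ.coeff i) = 0 := by
      rw [← Polynomial.coeff_map, hΦ, Polynomial.map_prod]
      simp only [Polynomial.map_sub, Polynomial.map_X, Polynomial.map_C,
        D.coeffMap_eq_zero_of_dvd (hdvd _), map_zero, sub_zero, Finset.prod_const,
        Finset.card_univ, coeff_X_pow, ← hd, if_neg hi.ne]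
    obtain ⟨m, P, hP⟩ := H.exists_poly (ht i)
    rw [show t i (one H.Γb) = Φ.coeff i from hte i] at hP
    have hPk : P.map D.res = 0 := D.trans_u (by
      simp only [eval₂_zero]
      have h1 := congrArg (coeffMap D.res) hP
      rw [map_mul, h0, zero_mul, hom_eval₂] at h1
      rw [eval₂_map, h1]
      congr 1
      exact RingHom.ext fun a => (coeffMap_C D.res a).symm)
    set z := (fun qb => t i qb * H.Q.eval₂ cC (H.uS qb) ^ m) - fun qb => P.eval₂ cC (H.uS qb)
      with hz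
    have hzm : z ∈ fRing H.Γb h ι :=
      sub_mem (mul_mem (ht i) (pow_mem (H.eval_uS_mem H.Q) m)) (H.eval_uS_mem P)
    have hz1 : z (one H.Γb) = 0 := by
      rw [hz, Pi.sub_apply, show t i (one H.Γb) = Φ.coeff i from hte i]
      exact sub_eq_zero.mpr hP
    have hz0 := congrFun (fRing_inj H.ι_injective hzm _ hz1) qb
    have hw : (fun qb => H.wS qb * H.Q.eval₂ cC (H.uS qb)) - 1 = 0 :=
      fRing_inj H.ι_injective (sub_mem (mul_mem H.wS_mem (H.eval_uS_mem H.Q)) (one_mem _))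
        (one H.Γb) (by simp [H.wS_mul])
    have hw' := congrFun hw qb
    simp only [Pi.sub_apply, Pi.one_apply, Pi.zero_apply, sub_eq_zero] at hw'
    simp only [hz, Pi.sub_apply, Pi.zero_apply, sub_eq_zero] at hz0
    have hPq : coeffMap D.res (P.eval₂ cC (H.uS qb)) = 0 := by
      rw [hom_eval₂, show (coeffMap D.res).comp cC = (cC : k →+* LaurentSeries k).comp D.res from
        RingHom.ext fun a => coeffMap_C D.res a, ← eval₂_map, hPk, eval₂_zero]
    have := congrArg (coeffMap D.res) hz0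
    rw [map_mul, hPq, map_pow] at this
    refine (mul_eq_zero.mp this).resolve_right (pow_ne_zero _ fun h0' => ?_)
    have h2 := congrArg (coeffMap D.res) hw'
    rw [map_mul, h0', mul_zero, map_one] at h2
    exact zero_ne_one h2
  set z : SL(2, ℤ) ⧸ Γ → LaurentSeries O :=
    (∑ i ∈ Finset.range d, pull (t i) * s ^ i) + s ^ d with hz
  have hzm : z ∈ fRing Γ h ι :=
    add_mem (sum_mem fun i _ => mul_mem (D.pull_mem (ht i)) (pow_mem hs i)) (pow_mem hs d)
  have hz1 : z D.l₀.1 = 0 := by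
    have h1 : Φ.eval (s D.l₀.1) = 0 := by
      rw [hΦ, eval_prod]
      exact Finset.prod_eq_zero (Finset.mem_univ D.l₀) (by simp)
    rw [eval_eq_sum_range, hdeg, Finset.sum_range_succ, ← hdeg, hmonic.coeff_natDegree, one_mul,
      hdeg] at h1
    rw [← h1, hz, Pi.add_apply, Finset.sum_apply, Pi.pow_apply]
    congr 1
    exact Finset.sum_congr rfl fun i _ => by
      rw [Pi.mul_apply, Pi.pow_apply, D.pull_sub]
      exact congrArg (· * _) (hte i)
  have hz0 := fRing_inj H.ι_injective hzm _ hz1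
  have hall : ∀ q, cC D.pi ∣ s q := by
    intro q
    refine D.dvd_of_coeffMap_eq_zero (eq_zero_of_pow_eq_zero (n := d) ?_)
    have h1 := congrArg (coeffMap D.res) (congrFun hz0 q)
    rw [Pi.zero_apply, map_zero, hz, Pi.add_apply, Finset.sum_apply, Pi.pow_apply, map_add,
      map_sum, map_pow, Finset.sum_eq_zero fun i hi => ?_, zero_add] at h1
    · exact h1
    · rw [Pi.mul_apply, map_mul, pull, hlow i (Finset.mem_range.mp hi), zero_mul]
  choose S hS using hall
  refine ⟨S, fRing_div H.ι_injective D.pi_ne_zero ?_, hS⟩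
  rwa [show (fun q => cC D.pi * S q) = s from funext fun q => (hS q).symm]

open Classical in
/-- The cosets over the base group have a tuple with non-zero discriminant modulo `pi`. -/
theorem exists_sepk : ∃ b : D.Sub → D.Sub → LaurentSeries O, (∀ j, b j ∈ D.subRing) ∧
    coeffMap D.res (Base.mat b).det ≠ 0 := by
  set uk := coeffMap D.res H.u
  have hinjx : Function.Injective fun m : ℕ => uk ^ m := by
    intro a b hab
    have h1 : (X ^ a : k[X]) = X ^ b := D.trans_u (by simpa [eval₂_X_pow] using hab)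
    have := congrArg natDegree h1
    simpa using this
  obtain ⟨m, -, hm⟩ := exists_injective_comb
    (fun (a : Fin D.n) (l : D.Sub) => coeffMap D.res (D.y a l.1))
    (fun l l' hll => D.sep_red l.1 l'.1 l.2 l'.2 fun he => hll (Subtype.ext he))
    (fun m : ℕ => uk ^ m) hinjx
  set s : SL(2, ℤ) ⧸ Γ → LaurentSeries O :=
    ∑ a : Fin D.n, (pull H.uS ^ m) ^ (a : ℕ) * D.y a with hs
  have hsm : s ∈ fRing Γ h ι :=
    sum_mem fun a _ => mul_mem (pow_mem (pow_mem (D.pull_mem H.uS_mem) m) _) (D.y_mem a)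
  have hsS : (fun l : D.Sub => s l.1) ∈ D.subRing := Subring.mem_map.mpr ⟨s, hsm, rfl⟩
  refine ⟨powTuple fun l : D.Sub => s l.1, fun j => pow_mem hsS _, ?_⟩
  have hmap : coeffMap D.res (Base.mat (powTuple fun l : D.Sub => s l.1)).det
      = (Base.mat (powTuple fun l : D.Sub =>
          ∑ a : Fin D.n, (uk ^ m) ^ (a : ℕ) * coeffMap D.res (D.y a l.1))).det := by
    rw [RingHom.map_det]
    congr 1
    ext l j
    simp [Base.mat, powTuple, hs, Finset.sum_apply, map_sum, D.pull_sub, uk, HauptU.u]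
  rw [hmap]
  exact det_powTuple_ne_zero hm

open Classical in
/-- The `Base` attached to the data. -/
def base : Base O k D.Sub where
  res := D.res
  res_surjective := D.res_surjective
  pi := D.pi
  pi_ne_zero := D.pi_ne_zero
  res_eq_zero := D.res_eq_zero
  S := D.subRing
  u := H.u
  Q := H.Q
  winv := H.wS (one H.Γb)
  winv_mul := H.wS_mul
  C_mem a := ⟨_, C_mem_fRing a, rfl⟩
  u_mem := by
    obtain ⟨f, hf, hfs⟩ := H.uS_mem
    refine ⟨fun q => H.uS (QuotientGroup.mk q.out), ⟨f, fun γ hγ => hf γ (D.le hγ), fun q => ?_⟩,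
      funext fun l => ?_⟩
    · have := hfs (QuotientGroup.mk q.out)
      convert this using 2
      funext τ
      rw [tr_mk hf]
      rfl
    · show H.uS (QuotientGroup.mk l.1.out) = H.uS (one H.Γb)
      congr 1
      exact QuotientGroup.eq.mpr (by simpa using l.2)
  winv_mem := by
    obtain ⟨f, hf, hfs⟩ := H.wS_mem
    refine ⟨fun q => H.wS (QuotientGroup.mk q.out), ⟨f, fun γ hγ => hf γ (D.le hγ), fun q => ?_⟩,
      funext fun l => ?_⟩
    · have := hfs (QuotientGroup.mk q.out)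
      convert this using 2
      funext τ
      rw [tr_mk hf]
      rfl
    · show H.wS (QuotientGroup.mk l.1.out) = H.wS (one H.Γb)
      congr 1
      exact QuotientGroup.eq.mpr (by simpa using l.2)
  trans := D.trans_u
  div y hy := by
    obtain ⟨s, hs, hsy⟩ := hy
    have hdvd : ∀ l : D.Sub, cC D.pi ∣ s l.1 := fun l => ⟨y l, congrFun hsy l⟩
    obtain ⟨S, hS, hSy⟩ := D.exists_eq_pi_mul hs hdvd
    refine ⟨S, hS, funext fun l => ?_⟩
    have h1 := congrFun hsy l
    rw [show D.proj s l = s l.1 from rfl, hSy l.1] at h1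
    exact mul_left_cancel₀ (by
      rw [Ne, ← map_zero cC]
      exact fun h0 => D.pi_ne_zero (HahnSeries.C_injective h0)) h1
  symm y hy i := by
    obtain ⟨s, hs, rfl⟩ := hy
    obtain ⟨t, ht, hte⟩ := D.symm_mem hs i
    obtain ⟨m, P, hP⟩ := H.exists_poly ht
    exact ⟨m, P, by rw [← hP]; exact congrArg (· * _) hte.symm⟩
  sep := by
    obtain ⟨B, P, a, m, hP⟩ := D.exists_sep
    exact ⟨B, fun s => powTuple fun l : D.Sub => D.comb (s : ℕ) l.1, P, a, m,
      fun s j => D.powTuple_mem (s : ℕ) j, hP⟩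
  sepk := by
    obtain ⟨b, hb, hdet⟩ := D.exists_sepk
    exact ⟨b, hb, hdet⟩

end SepData

end Fermat.Agent.Connected
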