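import Fermat.Agent.Connected.Instance

/-!
# Reduction at one cusp is injective

The final form of the connectedness theorem for rings of modular functions: given `SepData`,
reduction modulo `pi` at infinity, or at a cusp inside the base group, is injective on `fRing`
(`red_injective`, `red_injective_of_mem`).
-/

set_option autoImplicit false

noncomputable section

open Polynomial ModularCurve UpperHalfPlane Matrix
open scoped MatrixGroups Manifold

namespace Fermat.Agent.Connected

local notation "cC" => HahnSeries.C (Γ := ℤ)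

open Fermat.Agent.Igusa (HasExp QSR mem_QSR jW)

theorem poleBound_jW (O : Type*) [CommRing O] (h : ℕ) [NeZero h] : PoleBound h (jW O h) :=
  fun n hn => by
    have := Igusa.coeff_jW_pow_of_lt (R := O) h 1 (n := n) (by push_cast; linarith)
    rwa [pow_one] at this

theorem jW_lead (O : Type*) [CommRing O] (h : ℕ) [NeZero h] :
    (jW O h).coeff (-(h : ℤ)) = 1 := by
  have := Igusa.coeff_jW_pow_self (R := O) h 1
  rwa [pow_one, Nat.cast_one, mul_one] at this

namespace SepData

variable {O k : Type*} [CommRing O] [IsDomain O] [Field k] {h : ℕ} [NeZero h] {ι : O →+* ℂ}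
  {H : Haupt O h ι} {Γ : Subgroup SL(2, ℤ)} [Fintype (SL(2, ℤ) ⧸ Γ)]
  (D : SepData O k h ι H Γ)

open Classical in
include D in
/-- As many functions on `Γ` as cosets are independent over `O[j]`. -/
theorem exists_rank : ∃ v : SL(2, ℤ) ⧸ Γ → SL(2, ℤ) ⧸ Γ → LaurentSeries O,
    (∀ i, v i ∈ fRing Γ h ι) ∧ ∀ P : SL(2, ℤ) ⧸ Γ → O[X],
      (∀ i', ∑ i, (P i).eval₂ cC (jW O h) * v i i' = 0) → P = 0 := by
  have hcast : Function.Injective fun m : ℕ => (m : LaurentSeries O) := fun a b hab => by
    have hc : ∀ n : ℕ, ι (((n : LaurentSeries O)).coeff 0) = (n : ℂ) := fun n => by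
      rw [← map_natCast (cC : O →+* LaurentSeries O) n, HahnSeries.C_apply,
        HahnSeries.coeff_single_same, map_natCast]
    have h1 := congrArg (fun x : LaurentSeries O => ι (x.coeff 0)) hab
    exact Nat.cast_injective ((hc a).symm.trans (h1.trans (hc b)))
  obtain ⟨m, -, hinj⟩ := exists_injective_comb D.y
    (fun q q' hqq => D.sep_series q q' hqq) (fun m : ℕ => (m : LaurentSeries O)) hcast
  refine ⟨powTuple (D.comb m), fun i => pow_mem (D.comb_mem m) _, fun P hP => ?_⟩
  set M := Base.mat (powTuple (D.comb m)) with hM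
  have hdet : M.det ≠ 0 := det_powTuple_ne_zero (z := D.comb m) hinj
  funext i
  have h1 := congrFun (Matrix.eq_zero_of_mulVec_eq_zero (M := M) hdet
    (v := fun i => (P i).eval₂ cC (jW O h)) (funext fun i' => by
      rw [Pi.zero_apply, ← hP i']
      exact Finset.sum_congr rfl fun i _ => mul_comm _ _)) i
  refine eval_coeff_lead (NeZero.pos h) (poleBound_jW O h) (jW_lead O h) fun n _ => ?_
  simp only [Pi.zero_apply] at h1
  rw [h1, HahnSeries.coeff_zero]

open Classical in
/-- The `Global` data. -/
def global : Global O k D.Sub (SL(2, ℤ) ⧸ Γ) where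
  base := D.base
  emb := Subtype.val
  R := fRing Γ h ι
  C_mem := C_mem_fRing
  map_S := fun _ => Subring.mem_map
  inj := fun _ hy i hi => fRing_inj H.ι_injective hy i hi
  sep_pi := D.sep_pi
  h := h
  h_pos := NeZero.pos h
  T := shiftPerm Γ
  zeta := H.zeta
  zeta_prim := H.zeta_prim
  twist := fun _ hy i n => fRing_twist H.ι_injective H.zeta_spec hy i n
  j := jW O h
  j_mem := jW_mem_fRing
  j_pole := poleBound_jW O h
  j_lead := jW_lead O h
  symm_j := fun _ hy n => fRing_symm_j H.ι_injective hy n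
  rank := D.exists_rank

include D in
/-- **Reduction at a cusp inside the base group is injective.** -/
theorem red_injective_of_mem {s : SL(2, ℤ) ⧸ Γ → LaurentSeries O} (hs : s ∈ fRing Γ h ι)
    {q₀ : SL(2, ℤ) ⧸ Γ} (hq₀ : q₀.out ∈ H.Γb) (h0 : coeffMap D.res (s q₀) = 0)
    (q : SL(2, ℤ) ⧸ Γ) : coeffMap D.res (s q) = 0 :=
  open Classical in D.global.rh_eq_zero_of_rh_eq_zero (l₀ := ⟨q₀, hq₀⟩) hs h0 q

include D in
/-- **Reduction at infinity is injective.** -/
theorem red_injective {s : SL(2, ℤ) ⧸ Γ → LaurentSeries O} (hs : s ∈ fRing Γ h ι)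
    (h0 : coeffMap D.res (s (one Γ)) = 0) (q : SL(2, ℤ) ⧸ Γ) : coeffMap D.res (s q) = 0 :=
  open Classical in D.global.rh_eq_zero_of_rh_eq_zero (l₀ := D.l₀) hs h0 q

end SepData

end Fermat.Agent.Connected
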