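import Fermat.Agent.Connected.Base

/-!
# Purity of the discriminant and normality of the reduced ring

Main results: `exists_unit_disc` (purity), `mem_Sbar_of_isIntegral` (normality) and, as a
consequence, `zeroIdem_mem_Sbar`.
-/

set_option autoImplicit false

noncomputable section

open Polynomial ModularCurve Matrix

namespace Fermat.Agent.Connected

local notation "cC" => HahnSeries.C (Γ := ℤ)

theorem pow_dvd_of_pow_two_mul_dvd_sq {R : Type*} [CommRing R] [IsDomain R]
    [IsIntegrallyClosed R] {f x : R} {n : ℕ} (h : f ^ (2 * n) ∣ x ^ 2) : f ^ n ∣ x := by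
  rw [mul_comm, pow_mul] at h
  exact (IsIntegrallyClosed.pow_dvd_pow_iff two_ne_zero).mp h

namespace Base

variable {O k ι : Type*} [CommRing O] [Field k] [Fintype ι] [DecidableEq ι]
  (D : Base O k ι)

theorem evk_ne_zero {p : k[X]} (hp : p ≠ 0) : D.evk p ≠ 0 :=
  fun h => hp (D.evk_injective (h.trans (map_zero _).symm))

/-- Every element of the reduced ring is a local combination of an optimal tuple. -/
theorem exists_span {f : k[X]} (hf : Prime f) (hfQ : ¬ f ∣ D.Qk) :
    ∃ b : ι → ι → LaurentSeries O, (∀ j, b j ∈ D.S) ∧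
      (mat fun j => D.rS (b j)).det ≠ 0 ∧
      ∀ z ∈ D.Sbar, ∃ s, ¬ f ∣ s ∧ ∃ c : ι → k[X],
        ∀ l, D.evk s * z l = ∑ j, D.evk (c j) * D.rS (b j) l := by
  classical
  have hgood : ∃ n : ℕ, ∃ b : ι → ι → LaurentSeries O, (∀ j, b j ∈ D.S) ∧
      (mat fun j => D.rS (b j)).det ≠ 0 ∧ ∃ s ∈ Submonoid.powers D.Qk, ∃ p,
        D.evk s * (mat fun j => D.rS (b j)).det ^ 2 = D.evk p ∧ ¬ f ^ (n + 1) ∣ p := by
    obtain ⟨b, hb, hdet⟩ := D.sepk
    have hdet' : (mat fun j => D.rS (b j)).det ≠ 0 := by rw [← rh_det]; exact hdet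
    obtain ⟨s, hs, p, hp⟩ := D.rh_mem_Bk (D.det_mul_det_mem_B hb hb)
    rw [map_mul, rh_det, ← pow_two] at hp
    have hp0 : p ≠ 0 := by
      rintro rfl
      rw [map_zero, mul_eq_zero] at hp
      obtain ⟨m, rfl⟩ := hs
      exact hp.elim (D.evk_ne_zero (pow_ne_zero m D.Qk_ne_zero)) (pow_ne_zero 2 hdet')
    obtain ⟨n, p', rfl, hp'⟩ := exists_pow_mul hf hp0
    refine ⟨n, b, hb, hdet', s, hs, _, hp, fun hdvd => hp' ?_⟩
    rw [pow_succ] at hdvd
    exact (mul_dvd_mul_iff_left (pow_ne_zero n hf.ne_zero)).mp hdvd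
  obtain ⟨b, hb, hdet, s, hs, p, hp, hpn⟩ := Nat.find_spec hgood
  set n := Nat.find hgood with hn
  have hmin : f ^ n ∣ p := by
    rcases Nat.eq_zero_or_pos n with h0 | h0
    · simp [h0]
    · by_contra hc
      exact Nat.find_min hgood (Nat.sub_lt h0 one_pos)
        ⟨b, hb, hdet, s, hs, p, hp, by rwa [← hn, Nat.sub_add_cancel (show 1 ≤ n from h0)]⟩
  obtain ⟨p0, rfl⟩ := hmin
  have hp0 : ¬ f ∣ p0 := fun h => hpn (by rw [pow_succ]; exact mul_dvd_mul_left _ h)
  refine ⟨b, hb, hdet, ?_⟩
  rintro _ ⟨y, hy, rfl⟩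
  have hloc : ∀ j, ∃ t, ¬ f ∣ t ∧ ∃ c,
      D.evk t * (mat fun i => D.rS (Function.update b j y i)).det
        = D.evk c * (mat fun i => D.rS (b i)).det := by
    intro j
    set b' := Function.update b j y with hb'def
    have hb' : ∀ i, b' i ∈ D.S := fun i => by
      rcases eq_or_ne i j with rfl | hij
      · simpa [hb'def] using hy
      · simpa [hb'def, hij] using hb i
    set d := (mat fun i => D.rS (b i)).det with hd
    set d' := (mat fun i => D.rS (b' i)).det with hd'
    obtain ⟨sx, hsx, x, hx⟩ := D.rh_mem_Bk (D.det_mul_det_mem_B hb hb')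
    obtain ⟨s', hs', p', hp'⟩ := D.rh_mem_Bk (D.det_mul_det_mem_B hb' hb')
    rw [map_mul, rh_det, rh_det] at hx
    rw [map_mul, rh_det] at hp'
    rw [← hd, ← hd'] at hx
    rw [← hd'] at hp'
    have hp'n : d' = 0 ∨ f ^ n ∣ p' := by
      rcases eq_or_ne d' 0 with h0 | h0
      · exact Or.inl h0
      · right
        rcases Nat.eq_zero_or_pos n with h1 | h1
        · simp [h1]
        · by_contra hc
          exact Nat.find_min hgood (Nat.sub_lt h1 one_pos)
            ⟨b', hb', h0, s', hs', p', by rw [pow_two]; exact hp',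
              by rwa [← hn, Nat.sub_add_cancel (show 1 ≤ n from h1)]⟩
    rcases hp'n with h0 | h0
    · exact ⟨1, fun h => hf.not_isUnit (isUnit_of_dvd_one h), 0, by simp [h0]⟩
    obtain ⟨p1, rfl⟩ := h0
    have hrel : s * s' * x ^ 2 = sx ^ 2 * (f ^ n * p0) * (f ^ n * p1) := by
      apply D.evk_injective
      rw [map_mul, map_mul, map_pow, ← hx, map_mul, map_mul, map_pow, ← hp, ← hp']
      ring
    have hss : ¬ f ∣ s * s' := fun h => by
      rcases hf.dvd_or_dvd h with h | h
      · exact D.powers_le_cop hf hfQ hs h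
      · exact D.powers_le_cop hf hfQ hs' h
    have hxn : f ^ n ∣ x := by
      refine pow_dvd_of_pow_two_mul_dvd_sq (hf.pow_dvd_of_dvd_mul_left _ hss ?_)
      exact ⟨sx ^ 2 * p0 * p1, by rw [hrel]; ring⟩
    obtain ⟨x0, rfl⟩ := hxn
    refine ⟨sx * p0, ?_, s * x0, mul_left_cancel₀ (D.evk_ne_zero (pow_ne_zero n hf.ne_zero)) ?_⟩
    · intro h
      rcases hf.dvd_or_dvd h with h | h
      · exact D.powers_le_cop hf hfQ hsx h
      · exact hp0 h
    · rw [map_mul, map_pow] at hp hx
      simp only [map_mul, map_pow]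
      calc D.evk f ^ n * (D.evk sx * D.evk p0 * d')
          = D.evk sx * (D.evk f ^ n * D.evk p0) * d' := by ring
        _ = D.evk sx * (D.evk s * d ^ 2) * d' := by rw [hp]
        _ = D.evk s * (D.evk sx * (d * d')) * d := by ring
        _ = D.evk s * (D.evk f ^ n * D.evk x0) * d := by rw [hx]
        _ = _ := by ring
  choose t ht c hc using hloc
  refine ⟨∏ j, t j, ?_, fun j => (∏ i ∈ Finset.univ.erase j, t i) * c j, fun l => ?_⟩
  · intro h
    obtain ⟨j, -, hj⟩ := hf.exists_mem_finset_dvd h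
    exact ht j hj
  · refine mul_left_cancel₀ hdet ?_
    calc (mat fun i => D.rS (b i)).det * (D.evk (∏ j, t j) * D.rS y l)
        = D.evk (∏ j, t j) * ((mat fun i => D.rS (b i)).det * D.rS y l) := by ring
      _ = D.evk (∏ j, t j) * ∑ j, ((mat fun i => D.rS (b i)).updateCol j (D.rS y)).det
            * D.rS (b j) l := by rw [sum_mat (fun i => D.rS (b i))]
      _ = _ := by
          rw [Finset.mul_sum, Finset.mul_sum]
          refine Finset.sum_congr rfl fun j _ => ?_
          rw [← mat_update, ← Finset.mul_prod_erase _ _ (Finset.mem_univ j), map_mul, map_mul,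
            show Function.update (fun i => D.rS (b i)) j (D.rS y)
              = fun i => D.rS (Function.update b j y i) from
              funext fun i => by rcases eq_or_ne i j with rfl | h <;> simp [*]]
          linear_combination D.evk (∏ i ∈ Finset.univ.erase j, t i) * D.rS (b j) l * hc j

theorem exists_map_eq (p : k[X]) : ∃ P : O[X], P.map D.res = p :=
  Polynomial.map_surjective _ D.res_surjective p

/-- Lifting the local spanning property modulo powers of `pi`. -/
theorem exists_span_mod {f : k[X]} (hf : Prime f) {b : ι → ι → LaurentSeries O}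
    (hb : ∀ j, b j ∈ D.S)
    (hspan : ∀ z ∈ D.Sbar, ∃ s, ¬ f ∣ s ∧ ∃ c : ι → k[X],
      ∀ l, D.evk s * z l = ∑ j, D.evk (c j) * D.rS (b j) l) :
    ∀ (N : ℕ) (y : ι → LaurentSeries O), y ∈ D.S → ∃ s : O[X], ¬ f ∣ s.map D.res ∧
      ∃ c : ι → O[X], ∀ l, cC D.pi ^ N ∣ D.ev s * y l - ∑ j, D.ev (c j) * b j l := by
  intro N
  induction N with
  | zero =>
    intro y _
    refine ⟨1, ?_, 0, fun l => by simp⟩
    rw [Polynomial.map_one]
    exact fun h => hf.not_isUnit (isUnit_of_dvd_one h)
  | succ N ih =>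
    intro y hy
    obtain ⟨s, hs, c, hc⟩ := hspan _ ⟨y, hy, rfl⟩
    obtain ⟨s', rfl⟩ := D.exists_map_eq s
    choose c' hc' using fun j => D.exists_map_eq (c j)
    have hdvd : ∀ l, cC D.pi ∣ D.ev s' * y l - ∑ j, D.ev (c' j) * b j l := fun l => by
      rw [← D.rh_eq_zero, map_sub, map_mul, map_sum, D.rh_ev]
      simp only [map_mul, D.rh_ev, hc']
      exact sub_eq_zero.mpr (hc l)
    choose y' hy' using hdvd
    have hy'S : y' ∈ D.S := by
      refine D.div y' ?_
      have hev : ∀ P : O[X], (fun _ : ι => D.ev P) ∈ D.S := fun P => by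
        induction P using Polynomial.induction_on' with
        | add p q hp hq =>
          simp only [map_add]
          exact add_mem hp hq
        | monomial i a =>
          simp only [ev, coe_eval₂RingHom, eval₂_monomial]
          exact mul_mem (D.C_mem a) (pow_mem D.u_mem i)
      simp only [← hy']
      have : (fun l => D.ev s' * y l - ∑ j, D.ev (c' j) * b j l)
          = (fun _ => D.ev s') * y - ∑ j, (fun _ => D.ev (c' j)) * b j := by
        funext l; simp
      rw [this]
      exact sub_mem (mul_mem (hev _) hy) (sum_mem fun j _ => mul_mem (hev _) (hb j))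
    obtain ⟨s2, hs2, c2, hc2⟩ := ih y' hy'S
    refine ⟨s2 * s', ?_, fun j => s2 * c' j + C D.pi * c2 j, fun l => ?_⟩
    · rw [Polynomial.map_mul]
      exact fun h => (hf.dvd_or_dvd h).elim hs2 hs
    · obtain ⟨w, hw⟩ := hc2 l
      refine ⟨w, ?_⟩
      have hC : D.ev (C D.pi) = cC D.pi := eval₂_C _ _
      rw [pow_succ, mul_right_comm, ← hw]
      simp only [map_mul, map_add, hC, add_mul, Finset.sum_add_distrib, mul_assoc,
        ← Finset.mul_sum]
      linear_combination D.ev s2 * hy' l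

theorem C_dvd_of_dvd_ev {P : O[X]} (h : cC D.pi ∣ D.ev P) : C D.pi ∣ P := by
  rw [← D.rh_eq_zero, D.rh_ev] at h
  have h' : P.map D.res = 0 := D.evk_injective (h.trans (map_zero _).symm)
  rw [C_dvd_iff_dvd_coeff]
  intro i
  rw [← D.res_eq_zero, ← Polynomial.coeff_map, h', Polynomial.coeff_zero]

variable [IsDomain O] in
/-- Cancelling `pi` in a congruence between polynomials. -/
theorem exists_map_mul_eq (a : ℕ) :
    ∀ {W Z p : O[X]}, p.map D.res ≠ 0 →
      cC D.pi ^ (a + 1) ∣ cC D.pi ^ a * D.ev W - D.ev (Z * p) →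
      ∃ Z', W.map D.res = Z' * p.map D.res := by
  induction a with
  | zero =>
    intro W Z p _ h
    rw [pow_one, pow_zero, one_mul, ← map_sub, ← D.rh_eq_zero, D.rh_ev] at h
    refine ⟨Z.map D.res, ?_⟩
    have := D.evk_injective (h.trans (map_zero _).symm)
    rwa [Polynomial.map_sub, Polynomial.map_mul, sub_eq_zero] at this
  | succ a ih =>
    intro W Z p hp h
    have h1 : cC D.pi ∣ D.ev (Z * p) := by
      have h2 : cC D.pi ∣ cC D.pi ^ (a + 1) * D.ev W :=
        dvd_mul_of_dvd_left (dvd_pow_self _ (Nat.succ_ne_zero a)) _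
      simpa using dvd_sub h2 ((dvd_pow_self _ (Nat.succ_ne_zero (a + 1))).trans h)
    rw [← D.rh_eq_zero, D.rh_ev] at h1
    have h3 := D.evk_injective (h1.trans (map_zero _).symm)
    rw [Polynomial.map_mul, mul_eq_zero] at h3
    have hZ : C D.pi ∣ Z := by
      refine D.C_dvd_of_dvd_ev ?_
      rw [← D.rh_eq_zero, D.rh_ev, h3.resolve_right hp, map_zero]
    obtain ⟨Z', rfl⟩ := hZ
    refine ih (Z := Z') hp ((mul_dvd_mul_iff_left D.cpi_ne_zero).mp ?_)
    have hC : D.ev (C D.pi) = cC D.pi := eval₂_C _ _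
    simp only [map_mul, hC] at h
    rw [← pow_succ', map_mul]
    refine h.trans (dvd_of_eq ?_)
    ring

theorem mat_eq_mul {b b' : ι → ι → LaurentSeries O} {I : Ideal (LaurentSeries O)}
    {c : ι → ι → O[X]} {s : ι → O[X]}
    (h : ∀ j l, D.ev (s j) * b' j l - ∑ i, D.ev (c j i) * b i l ∈ I) :
    (∏ j, D.ev (s j)) * (mat b').det
      - (mat b).det * D.ev (Matrix.of fun i j => c j i).det ∈ I := by
  rw [← Matrix.det_mul_row, ← Ideal.Quotient.eq, map_mul, RingHom.map_det, RingHom.map_det,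
    RingHom.map_det, RingHom.map_det, ← Matrix.det_mul]
  congr 1
  ext l j
  simp only [Matrix.mul_apply, RingHom.mapMatrix_apply, Matrix.map_apply, Matrix.of_apply, mat]
  rw [Ideal.Quotient.eq.mpr (h j l), map_sum]
  exact Finset.sum_congr rfl fun i _ => by rw [map_mul, mul_comm]

variable [IsDomain O] in
/-- **Purity**: locally at `f` the reduced discriminant is a unit. -/
theorem exists_unit_disc {f : k[X]} (hf : Prime f) (hfQ : ¬ f ∣ D.Qk) :
    ∃ b : ι → ι → LaurentSeries O, (∀ j, b j ∈ D.S) ∧ ∃ s ∈ Submonoid.powers D.Qk, ∃ p,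
      ¬ f ∣ p ∧ D.evk s * (mat fun j => D.rS (b j)).det ^ 2 = D.evk p := by
  classical
  obtain ⟨b, hb, hdet, hspan⟩ := D.exists_span hf hfQ
  refine ⟨b, hb, ?_⟩
  obtain ⟨s₀, ⟨m₀, rfl⟩, p, hp⟩ := D.det_mul_det_mem_B hb hb
  rw [← pow_two] at hp
  have hpk : D.evk (D.Qk ^ m₀) * (mat fun j => D.rS (b j)).det ^ 2 = D.evk (p.map D.res) := by
    rw [← D.rh_ev, ← hp, map_mul, map_pow D.rh (mat b).det, rh_det, D.rh_ev, Polynomial.map_pow]
    rfl
  refine ⟨_, ⟨m₀, rfl⟩, p.map D.res, ?_, hpk⟩
  have hp0 : p.map D.res ≠ 0 := by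
    intro h0
    rw [h0, map_zero, mul_eq_zero] at hpk
    exact hpk.elim (D.evk_ne_zero (pow_ne_zero _ D.Qk_ne_zero)) (pow_ne_zero 2 hdet)
  obtain ⟨r, b', P, a, m, hb', hsum⟩ := D.sep
  choose t ht c hc using fun s j => D.exists_span_mod hf hb hspan (a + 1) (b' s j) (hb' s j)
  set I : Ideal (LaurentSeries O) := Ideal.span {cC D.pi ^ (a + 1)} with hI
  set T : Fin r → O[X] := fun s => (∏ j, t s j) ^ 2
  set E : Fin r → O[X] := fun s => (Matrix.of fun i j => c s j i).det ^ 2
  set W : O[X] := (∏ s, T s) * D.Q ^ m * D.Q ^ m₀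
  set Z : O[X] := ∑ s, P s * (∏ s' ∈ Finset.univ.erase s, T s') * E s
  have key : cC D.pi ^ (a + 1) ∣ cC D.pi ^ a * D.ev W - D.ev (Z * p) := by
    rw [← Ideal.mem_span_singleton, ← hI, ← Ideal.Quotient.eq]
    have hq : ∀ s, Ideal.Quotient.mk I (D.ev (T s) * (mat (b' s)).det ^ 2)
        = Ideal.Quotient.mk I ((mat b).det ^ 2 * D.ev (E s)) := fun s => by
      have h := Ideal.Quotient.eq.mpr (D.mat_eq_mul (I := I) (b := b) (b' := b' s) (c := c s)
        (s := t s) fun j l => Ideal.mem_span_singleton.mpr (hc s j l))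
      simp only [T, E, map_pow, map_prod, map_mul] at h ⊢
      rw [← mul_pow, ← mul_pow, h]
    calc Ideal.Quotient.mk I (cC D.pi ^ a * D.ev W)
        = Ideal.Quotient.mk I (D.ev ((∏ s, T s) * D.Q ^ m₀) *
            ∑ s, D.ev (P s) * (mat (b' s)).det ^ 2) := by
          congr 1
          rw [show (∑ s, D.ev (P s) * (mat (b' s)).det ^ 2) = cC D.pi ^ a * D.ev D.Q ^ m from hsum]
          simp only [W, map_mul, map_pow]
          ring
      _ = ∑ s, Ideal.Quotient.mk I (D.ev (D.Q ^ m₀ * P s * ∏ s' ∈ Finset.univ.erase s, T s')) *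
            Ideal.Quotient.mk I (D.ev (T s) * (mat (b' s)).det ^ 2) := by
          rw [Finset.mul_sum, map_sum]
          refine Finset.sum_congr rfl fun s _ => ?_
          rw [← map_mul (Ideal.Quotient.mk I), ← Finset.mul_prod_erase _ _ (Finset.mem_univ s)]
          congr 1
          simp only [map_mul]
          ring
      _ = Ideal.Quotient.mk I (D.ev (Z * p)) := by
          simp only [hq, ← map_mul (Ideal.Quotient.mk I), ← map_sum]
          congr 1
          simp only [Z, map_mul, map_sum, ← hp, Finset.sum_mul]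
          refine Finset.sum_congr rfl fun s _ => ?_
          ring
  obtain ⟨Z', hZ'⟩ := D.exists_map_mul_eq a hp0 key
  intro hfp
  have hW : f ∣ W.map D.res := hZ' ▸ dvd_mul_of_dvd_right hfp _
  simp only [W, T, Polynomial.map_mul, Polynomial.map_pow, Polynomial.map_prod] at hW
  rcases hf.dvd_or_dvd hW with h | h
  · rcases hf.dvd_or_dvd h with h | h
    · obtain ⟨s, -, hs⟩ := hf.exists_mem_finset_dvd h
      obtain ⟨j, -, hj⟩ := hf.exists_mem_finset_dvd (hf.dvd_of_dvd_pow hs)
      exact ht s j hj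
    · exact hfQ (hf.dvd_of_dvd_pow h)
  · exact hfQ (hf.dvd_of_dvd_pow h)

theorem const_mem_Sbar {x : LaurentSeries k} (hx : x ∈ D.Bk) : (fun _ => x) ∈ D.Sbar := by
  have hev : ∀ P : O[X], (fun _ : ι => D.ev P) ∈ D.S := fun P => by
    induction P using Polynomial.induction_on' with
    | add p q hp hq =>
      simp only [map_add]
      exact add_mem hp hq
    | monomial i a =>
      simp only [ev, coe_eval₂RingHom, eval₂_monomial]
      exact mul_mem (D.C_mem a) (pow_mem D.u_mem i)
  obtain ⟨s, ⟨m, rfl⟩, P, hP⟩ := hx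
  obtain ⟨P', rfl⟩ := D.exists_map_eq P
  refine ⟨(fun _ => D.winv) ^ m * fun _ => D.ev P', mul_mem (pow_mem D.winv_mem m) (hev P'), ?_⟩
  funext l
  simp only [rS_apply, Pi.mul_apply, Pi.pow_apply, map_mul, map_pow, D.rh_ev]
  have hw : D.rh D.winv * D.evk D.Qk = 1 := by
    rw [Qk, ← D.rh_ev, ← map_mul, show D.winv * D.ev D.Q = 1 from D.winv_mul, map_one]
  rw [← hP, map_pow, ← mul_assoc, ← mul_pow, hw, one_pow, one_mul]

theorem exists_eq_pow_mul_of_forall {g : k[X]} (hg : g ≠ 0)
    (h : ∀ f : k[X], Prime f → ¬ f ∣ D.Qk → ¬ f ∣ g) : ∃ N, g ∣ D.Qk ^ N := by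
  induction g using UniqueFactorizationMonoid.induction_on_prime with
  | h₁ => exact absurd rfl hg
  | h₂ x hx => exact ⟨0, hx.dvd⟩
  | h₃ a p ha hp ih =>
    obtain ⟨N, hN⟩ := ih ha fun f hf hfQ hfa => h f hf hfQ (dvd_mul_of_dvd_right hfa p)
    have hpQ : p ∣ D.Qk := by
      by_contra hc
      exact h p hp hc (dvd_mul_right p a)
    exact ⟨N + 1, by rw [pow_succ']; exact mul_dvd_mul hpQ hN⟩

theorem isIntegral_of_mem_Sbar {z : ι → LaurentSeries k} (hz : z ∈ D.Sbar) (l : ι) :
    IsIntegral D.Bk (z l) := by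
  set P : (LaurentSeries k)[X] := ∏ i, (X - C (z i)) with hP
  have hco : (↑P.coeffs : Set (LaurentSeries k)) ⊆ D.Bk := fun c hc => by
    obtain ⟨i, -, rfl⟩ := Polynomial.mem_coeffs_iff.mp hc
    exact D.coeff_mem_Bk hz i
  refine ⟨P.toSubring D.Bk hco, (Polynomial.monic_toSubring _ _ _).mpr
    (monic_prod_of_monic _ _ fun i _ => monic_X_sub_C _), ?_⟩
  rw [← Polynomial.eval_map, show algebraMap D.Bk (LaurentSeries k) = D.Bk.subtype from rfl,
    Polynomial.map_toSubring, hP, eval_prod]
  exact Finset.prod_eq_zero (Finset.mem_univ l) (by simp)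

variable [IsDomain O] in
/-- **Normality** of the reduced ring. -/
theorem mem_Sbar_of_isIntegral {z : ι → LaurentSeries k} {c : k[X]} (hc : c ≠ 0)
    (hcz : (fun l => D.evk c * z l) ∈ D.Sbar) (hz : ∀ l, IsIntegral D.Bk (z l)) :
    z ∈ D.Sbar := by
  classical
  let J : Ideal k[X] :=
    { carrier := {w | (fun l => D.evk w * z l) ∈ D.Sbar}
      add_mem' := fun {a b} ha hb => by
        show (fun l => D.evk (a + b) * z l) ∈ D.Sbar
        rw [show (fun l => D.evk (a + b) * z l)
          = (fun l => D.evk a * z l) + fun l => D.evk b * z l from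
            funext fun l => by simp [add_mul]]
        exact add_mem ha hb
      zero_mem' := by
        show (fun l => D.evk 0 * z l) ∈ D.Sbar
        rw [show (fun l => D.evk 0 * z l) = 0 from funext fun l => by simp]
        exact zero_mem D.Sbar
      smul_mem' := fun a b hb => by
        show (fun l => D.evk (a * b) * z l) ∈ D.Sbar
        rw [show (fun l => D.evk (a * b) * z l)
          = (fun _ => D.evk a) * fun l => D.evk b * z l from
            funext fun l => by simp [mul_assoc]]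
        exact mul_mem (D.const_mem_Sbar (map_mem_locSub D.evk _ a)) hb }
  obtain ⟨g, hg⟩ := (IsPrincipalIdealRing.principal J).principal
  have hgJ : ∀ w, w ∈ J ↔ g ∣ w := fun w => by rw [hg]; exact Ideal.mem_span_singleton
  have hg0 : g ≠ 0 := by
    rintro rfl
    exact hc (zero_dvd_iff.mp ((hgJ c).mp hcz))
  have hloc : ∀ f : k[X], Prime f → ¬ f ∣ D.Qk → ¬ f ∣ g := by
    intro f hf hfQ hfg
    obtain ⟨b, hb, s, hs, p, hp, hdisc⟩ := D.exists_unit_disc hf hfQ
    set M := mat fun j => D.rS (b j) with hM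
    have hentry : ∀ i j, IsIntegral D.Bk (M i j) := fun i j =>
      D.isIntegral_of_mem_Sbar ⟨b j, hb j, rfl⟩ i
    have hX : ∀ j, M.det * (M.updateCol j z).det ∈ locSub D.evk (cop hf) := by
      intro j
      have h1 : IsIntegral D.Bk (M.det * (M.updateCol j z).det) := by
        refine (IsIntegral.det hentry).mul (IsIntegral.det fun i i' => ?_)
        rcases eq_or_ne i' j with rfl | hne
        · simpa using hz i
        · simpa [hne] using hentry i i'
      obtain ⟨y, hy, hyz⟩ := hcz
      have h2 : D.evk c * (M.det * (M.updateCol j z).det) ∈ D.Bk := by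
        have hb' : ∀ i, Function.update b j y i ∈ D.S := fun i => by
          rcases eq_or_ne i j with rfl | hij
          · simpa using hy
          · simpa [hij] using hb i
        have := D.rh_mem_Bk (D.det_mul_det_mem_B hb hb')
        rw [map_mul, rh_det, rh_det, show (fun i => D.rS (Function.update b j y i))
          = Function.update (fun i => D.rS (b i)) j (D.rS y) from
            funext fun i => by rcases eq_or_ne i j with rfl | h <;> simp [*],
          mat_update, hyz, ← hM] at this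
        rw [show (fun l => D.evk c * z l) = D.evk c • z from rfl, det_updateCol_smul] at this
        rwa [mul_left_comm] at this
      obtain ⟨t, ⟨e, rfl⟩, P, hP⟩ := h2
      refine D.mem_loc_of_isIntegral hf hfQ (A := D.Qk ^ e * c) (P := P) ?_ ?_ h1
      · exact mul_ne_zero (pow_ne_zero _ D.Qk_ne_zero) hc
      · rw [map_mul, mul_assoc]
        exact hP
    choose t ht P hP using fun j => mem_locSub.mp (hX j)
    have hW : (∏ j, t j) * p ∈ J := by
      show (fun l => D.evk ((∏ j, t j) * p) * z l) ∈ D.Sbar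
      have : (fun l => D.evk ((∏ j, t j) * p) * z l) = ∑ j, (fun _ =>
          D.evk (s * (∏ i ∈ Finset.univ.erase j, t i) * P j)) * D.rS (b j) := by
        funext l
        rw [Finset.sum_apply]
        calc D.evk ((∏ j, t j) * p) * z l
            = D.evk s * D.evk (∏ j, t j) * M.det * (M.det * z l) := by
              rw [map_mul, ← hdisc]; ring
          _ = _ := by
              rw [hM, ← sum_mat (fun j => D.rS (b j)), ← hM, Finset.mul_sum]
              refine Finset.sum_congr rfl fun j _ => ?_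
              rw [← Finset.mul_prod_erase _ _ (Finset.mem_univ j)]
              simp only [map_mul, Pi.mul_apply, ← hP j]
              ring
      rw [this]
      exact sum_mem fun j _ =>
        mul_mem (D.const_mem_Sbar (map_mem_locSub D.evk _ _)) ⟨b j, hb j, rfl⟩
    rcases hf.dvd_or_dvd (hfg.trans ((hgJ _).mp hW)) with h | h
    · obtain ⟨j, -, hj⟩ := hf.exists_mem_finset_dvd h
      exact ht j hj
    · exact hp h
  obtain ⟨N, hN⟩ := D.exists_eq_pow_mul_of_forall hg0 hloc
  have h1 : (fun l => D.evk (D.Qk ^ N) * z l) ∈ D.Sbar := (hgJ _).mpr hN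
  obtain ⟨w, hw⟩ : ∃ w : LaurentSeries k, w ∈ D.Bk ∧ w * D.evk (D.Qk ^ N) = 1 := by
    refine ⟨(D.evk (D.Qk ^ N))⁻¹, ⟨D.Qk ^ N, ⟨N, rfl⟩, 1, ?_⟩, ?_⟩
    · rw [mul_inv_cancel₀ (D.evk_ne_zero (pow_ne_zero _ D.Qk_ne_zero)), map_one]
    · exact inv_mul_cancel₀ (D.evk_ne_zero (pow_ne_zero _ D.Qk_ne_zero))
  have : z = (fun _ => w) * fun l => D.evk (D.Qk ^ N) * z l := by
    funext l
    rw [Pi.mul_apply, ← mul_assoc, hw.2, one_mul]
  rw [this]
  exact mul_mem (D.const_mem_Sbar hw.1) h1

variable [IsDomain O] in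
/-- The idempotent of the zero set of an element of the reduced ring. -/
theorem zeroIdem_mem_Sbar {z : ι → LaurentSeries k} (hz : z ∈ D.Sbar)
    [DecidablePred fun l => z l = 0] : (fun l => if z l = 0 then 1 else 0) ∈ D.Sbar := by
  classical
  set P : (LaurentSeries k)[X] := ∏ i, (X - C (z i)) with hP
  set r := (Finset.univ.filter fun i => z i = 0).card with hr
  set P' : (LaurentSeries k)[X] :=
    ∏ i ∈ Finset.univ.filter (fun i => ¬ z i = 0), (X - C (z i)) with hP'
  have hsplit : P = X ^ r * P' := by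
    rw [hP, ← Finset.prod_filter_mul_prod_filter_not Finset.univ (fun i => z i = 0), hP', hr]
    congr 1
    rw [Finset.prod_congr rfl (g := fun _ => X) (fun i hi => by
      rw [(Finset.mem_filter.mp hi).2, map_zero, sub_zero]), Finset.prod_const]
  have hco : ∀ i, P'.coeff i ∈ D.Bk := fun i => by
    have := D.coeff_mem_Bk hz (i + r)
    rwa [← hP, hsplit, coeff_X_pow_mul] at this
  set a := P'.eval 0 with ha
  have ha0 : a ≠ 0 := by
    rw [ha, hP', eval_prod]
    refine Finset.prod_ne_zero_iff.mpr fun i hi => ?_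
    simpa using (Finset.mem_filter.mp hi).2
  obtain ⟨s, ⟨m, rfl⟩, c, hc⟩ : a ∈ D.Bk := by
    rw [ha, ← coeff_zero_eq_eval_zero]
    exact hco 0
  have hc0 : c ≠ 0 := by
    rintro rfl
    rw [map_zero, mul_eq_zero] at hc
    exact hc.elim (D.evk_ne_zero (pow_ne_zero m D.Qk_ne_zero)) ha0
  refine D.mem_Sbar_of_isIntegral hc0 ?_ fun l => ?_
  · have hkey : ∀ l, a * (if z l = 0 then 1 else 0) = P'.eval (z l) := fun l => by
      split_ifs with h
      · rw [h, ← ha, mul_one]
      · rw [mul_zero, hP', eval_prod]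
        exact (Finset.prod_eq_zero (Finset.mem_filter.mpr ⟨Finset.mem_univ l, h⟩) (by simp)).symm
    have : (fun l => D.evk c * if z l = 0 then 1 else 0) = (fun _ => D.evk (D.Qk ^ m)) *
        ∑ i ∈ Finset.range (P'.natDegree + 1), (fun _ => P'.coeff i) * z ^ i := by
      funext l
      rw [← hc, Pi.mul_apply, Finset.sum_apply, mul_assoc, hkey l, eval_eq_sum_range]
      rfl
    rw [this]
    exact mul_mem (D.const_mem_Sbar (map_mem_locSub D.evk _ _))
      (sum_mem fun i _ => mul_mem (D.const_mem_Sbar (hco i)) (pow_mem hz i))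
  · show IsIntegral D.Bk (if z l = 0 then (1 : LaurentSeries k) else 0)
    split_ifs
    exacts [isIntegral_one, isIntegral_zero]

end Base

end Fermat.Agent.Connected
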